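import Mathlib
import Fermat.Prelude.Def_FLTPrelim_Ramification
import Fermat.Agent.Lib.Frobenius
import Fermat.Agent.S13.Minkowski

/-!
# The inertia field of a valuation subring of `ℚ̄`: definitions and basic API
(owner: helper71)

For `A : ValuationSubring ℚ̄`, `K0 A` is the fixed field of the inertia subgroup of `A` and
`A0 A = A ∩ K0 A` its valuation subring.
-/

set_option autoImplicit false

namespace Fermat.Agent.Lib.InertiaField

open scoped Pointwise
open Fermat.Agent.Lib.Frobenius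

/-- `ℚ̄`. -/
abbrev Qb : Type := AlgebraicClosure ℚ

/-- The absolute Galois group of `ℚ`. -/
abbrev GQ : Type := AlgebraicClosure ℚ ≃ₐ[ℚ] AlgebraicClosure ℚ

/-- The inertia field of `A`. -/
noncomputable def K0 (A : ValuationSubring Qb) : IntermediateField ℚ Qb :=
  IntermediateField.fixedField (A.inertiaSubgroupIn ℚ)

/-- The valuation subring `A ∩ K0 A` of the inertia field. -/
noncomputable def A0 (A : ValuationSubring Qb) : ValuationSubring (K0 A) :=
  A.comap (algebraMap (K0 A) Qb)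

theorem mem_K0_iff (A : ValuationSubring Qb) (x : Qb) :
    x ∈ K0 A ↔ ∀ τ ∈ A.inertiaSubgroupIn ℚ, τ x = x := by
  constructor
  · intro h τ hτ
    exact h ⟨τ, hτ⟩
  · intro h τ
    exact h τ.1 τ.2

theorem mem_A0_iff (A : ValuationSubring Qb) (x : K0 A) : x ∈ A0 A ↔ (x : Qb) ∈ A := Iff.rfl

theorem mem_nonunits_A0_iff (A : ValuationSubring Qb) (x : K0 A) :
    x ∈ (A0 A).nonunits ↔ (x : Qb) ∈ A.nonunits := by
  by_cases hx : x = 0
  · subst hx
    simp [ValuationSubring.mem_nonunits_iff]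
  · have hx' : (x : Qb) ≠ 0 := fun h => hx (Subtype.ext h)
    have key : ∀ {F : Type} [Field F] (B : ValuationSubring F) (y : F), y ≠ 0 →
        (y ∈ B.nonunits ↔ y⁻¹ ∉ B) := by
      intro F _ B y hy
      rw [ValuationSubring.mem_nonunits_iff, ← B.valuation_le_one_iff, map_inv₀, not_le]
      have hv : B.valuation y ≠ 0 := (map_ne_zero _).2 hy
      rw [one_lt_inv₀ (zero_lt_iff.2 hv)]
    rw [key _ _ hx, key _ _ hx', mem_A0_iff]
    simp

/-- Elements of the decomposition subgroup preserve `A`. -/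
theorem apply_mem_of_mem_decomposition (A : ValuationSubring Qb) {σ : GQ}
    (hσ : σ ∈ A.decompositionSubgroup ℚ) {a : Qb} (ha : a ∈ A) : σ a ∈ A := by
  have h : σ • A = A := hσ
  rw [← h]
  exact ⟨a, ha, rfl⟩

/-- Elements of the decomposition subgroup preserve the maximal ideal of `A`. -/
theorem apply_mem_nonunits_of_mem_decomposition (A : ValuationSubring Qb) {σ : GQ}
    (hσ : σ ∈ A.decompositionSubgroup ℚ) {a : Qb} (ha : a ∈ A.nonunits) : σ a ∈ A.nonunits := by
  by_cases h0 : a = 0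
  · subst h0
    simpa using ha
  · have hinv : σ⁻¹ ∈ A.decompositionSubgroup ℚ := inv_mem hσ
    rw [ValuationSubring.mem_nonunits_iff] at ha ⊢
    by_contra hcon
    rw [not_lt] at hcon
    have h1 : (σ a)⁻¹ ∈ A := by
      rw [← A.valuation_le_one_iff, map_inv₀]
      exact inv_le_one_of_one_le₀ hcon
    have h2 := apply_mem_of_mem_decomposition A hinv h1
    have h3 : σ⁻¹ ((σ a)⁻¹) = a⁻¹ := by
      rw [map_inv₀]
      congr 1
      exact σ.symm_apply_apply a
    rw [h3, ← A.valuation_le_one_iff, map_inv₀] at h2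
    have hv : A.valuation a ≠ 0 := (map_ne_zero _).2 h0
    have h4 : 1 < (A.valuation a)⁻¹ := (one_lt_inv₀ (zero_lt_iff.2 hv)).2 ha
    exact absurd h2 (not_le.2 h4)

theorem inertia_le_decomposition (A : ValuationSubring Qb) :
    A.inertiaSubgroupIn ℚ ≤ A.decompositionSubgroup ℚ := by
  rintro _ ⟨τ, _, rfl⟩
  exact τ.2

/-- Inertia acts trivially modulo the maximal ideal. -/
theorem apply_sub_mem_nonunits (A : ValuationSubring Qb) {τ : GQ}
    (hτ : τ ∈ A.inertiaSubgroupIn ℚ) {a : Qb} (ha : a ∈ A) : τ a - a ∈ A.nonunits := by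
  obtain ⟨t, ht, rfl⟩ := hτ
  have h1 : MulSemiringAction.toRingAut (A.decompositionSubgroup ℚ)
      (IsLocalRing.ResidueField A) t = 1 := ht
  have h2 : t • IsLocalRing.residue A ⟨a, ha⟩ = IsLocalRing.residue A ⟨a, ha⟩ :=
    congrArg (fun f => f (IsLocalRing.residue A ⟨a, ha⟩)) h1
  rw [← IsLocalRing.ResidueField.residue_smul, ← sub_eq_zero, ← map_sub,
    IsLocalRing.residue_eq_zero_iff] at h2
  rw [ValuationSubring.mem_nonunits_iff_exists_mem_maximalIdeal]
  exact ⟨_, h2⟩

theorem mem_inertia_iff (A : ValuationSubring Qb) (σ : GQ) :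
    σ ∈ A.inertiaSubgroupIn ℚ ↔ ∀ x : Qb, IsIntegral ℤ x → σ x - x ∈ A.nonunits :=
  ⟨fun h _ hx => apply_sub_mem_nonunits A h (mem_valuationSubring_of_isIntegral A hx),
    Fermat.Agent.S13.Minkowski.mem_inertiaSubgroupIn_of A σ⟩

end Fermat.Agent.Lib.InertiaField
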