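import Mathlib
import Fermat.Agent.Lib.InertiaField.Defs

/-!
# Hensel's lemma in the inertia field
-/

set_option autoImplicit false

namespace Fermat.Agent.Lib.InertiaField

open Fermat.Agent.Lib.Frobenius Polynomial

variable (A : ValuationSubring Qb)

/-! ### private helpers -/

theorem Hensel.nonunits_add {x y : Qb} (hx : x ∈ A.nonunits) (hy : y ∈ A.nonunits) :
    x + y ∈ A.nonunits := by
  rw [ValuationSubring.mem_nonunits_iff] at hx hy ⊢
  exact A.valuation.map_add_lt hx hy

theorem Hensel.nonunits_neg {x : Qb} (hx : x ∈ A.nonunits) : -x ∈ A.nonunits := by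
  rw [ValuationSubring.mem_nonunits_iff] at hx ⊢
  rwa [Valuation.map_neg]

theorem Hensel.nonunits_mem {x : Qb} (hx : x ∈ A.nonunits) : x ∈ A :=
  A.nonunits_subset hx

theorem Hensel.zero_mem_nonunits : (0 : Qb) ∈ A.nonunits := by
  rw [ValuationSubring.mem_nonunits_iff, map_zero]
  exact zero_lt_one

theorem Hensel.exists_lift (f : Qb[X]) (hf : f.Monic) (hc : ∀ i, f.coeff i ∈ A) :
    ∃ F : (A : Type)[X], F.map A.subtype = f ∧ F.Monic := by
  have hl : f ∈ Polynomial.lifts A.subtype := by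
    rw [Polynomial.lifts_iff_coeff_lifts]
    intro i
    exact ⟨⟨f.coeff i, hc i⟩, rfl⟩
  obtain ⟨F, hF, -, hFm⟩ := Polynomial.lifts_and_natDegree_eq_and_monic hl hf
  exact ⟨F, hF, hFm⟩

/-- Two distinct roots in `ℚ̄` of a monic polynomial with coefficients in `A` which are congruent to
`r` modulo the maximal ideal force `f'(r)` into the maximal ideal. -/
theorem eq_of_roots_congr (f : Qb[X]) (hf : f.Monic) (hc : ∀ i, f.coeff i ∈ A) {r a b : Qb}
    (hr : r ∈ A) (h2 : f.derivative.eval r ∉ A.nonunits) (ha : f.eval a = 0) (hb : f.eval b = 0)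
    (har : a - r ∈ A.nonunits) (hbr : b - r ∈ A.nonunits) : a = b := by
  by_contra hab
  apply h2
  obtain ⟨F, rfl, -⟩ := Hensel.exists_lift A f hf hc
  have haA : a ∈ A := by
    have := A.add_mem _ _ (Hensel.nonunits_mem A har) hr
    rwa [sub_add_cancel] at this
  have hbA : b ∈ A := by
    have := A.add_mem _ _ (Hensel.nonunits_mem A hbr) hr
    rwa [sub_add_cancel] at this
  lift a to A using haA
  lift b to A using hbA
  lift r to A using hr
  have hinj : Function.Injective A.subtype := Subtype.val_injective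
  have ha' : F.eval a = 0 := by
    apply hinj
    rw [map_zero, ← Polynomial.eval_map_apply]
    exact ha
  have hb' : F.eval b = 0 := by
    apply hinj
    rw [map_zero, ← Polynomial.eval_map_apply]
    exact hb
  have hab' : b - a ≠ 0 := by
    intro h
    apply hab
    rw [sub_eq_zero] at h
    rw [h]
  obtain ⟨k, hk⟩ := Polynomial.binomExpansion F a (b - a)
  rw [add_sub_cancel, ha', hb', zero_add] at hk
  have h3 : F.derivative.eval a = -(k * (b - a)) := by
    have : (b - a) * (F.derivative.eval a + k * (b - a)) = 0 := by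
      linear_combination -hk
    rcases mul_eq_zero.mp this with h | h
    · exact absurd h hab'
    · linear_combination h
  have hm : ∀ x : A, (x : Qb) ∈ A.nonunits ↔ x ∈ IsLocalRing.maximalIdeal A :=
    fun x => A.coe_mem_nonunits_iff
  have har' : a - r ∈ IsLocalRing.maximalIdeal A := (hm _).1 har
  have hbr' : b - r ∈ IsLocalRing.maximalIdeal A := (hm _).1 hbr
  have hba : b - a ∈ IsLocalRing.maximalIdeal A := by
    have := Ideal.sub_mem _ hbr' har'
    rwa [sub_sub_sub_cancel_right] at this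
  have h4 : F.derivative.eval a ∈ IsLocalRing.maximalIdeal A := by
    rw [h3]
    exact neg_mem (Ideal.mul_mem_left _ _ hba)
  have h5 : F.derivative.eval a - F.derivative.eval r ∈ IsLocalRing.maximalIdeal A :=
    Ideal.mem_of_dvd _ (Polynomial.sub_dvd_eval_sub a r F.derivative) har'
  have h6 : F.derivative.eval r ∈ IsLocalRing.maximalIdeal A := by
    have := Ideal.sub_mem _ h4 h5
    rwa [sub_sub_cancel] at this
  rw [Polynomial.derivative_map]
  have h7 : (F.derivative.map A.subtype).eval (r : Qb) = ((F.derivative.eval r : A) : Qb) :=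
    Polynomial.eval_map_apply A.subtype r
  rw [h7, hm]
  exact h6

/-- a simple root modulo the maximal ideal which is an honest root lies in the inertia field. -/
theorem Hensel.mem_K0_of_simple_root (f : Qb[X]) (hf : f.Monic)
    (hc : ∀ i, f.coeff i ∈ K0 A ∧ f.coeff i ∈ A) {r a : Qb} (hr : r ∈ A)
    (h2 : f.derivative.eval r ∉ A.nonunits) (ha : f.eval a = 0) (har : a - r ∈ A.nonunits) :
    a ∈ K0 A := by
  have haA : a ∈ A := by
    have := A.add_mem _ _ (Hensel.nonunits_mem A har) hr
    rwa [sub_add_cancel] at this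
  rw [mem_K0_iff]
  intro τ hτ
  have hmap : f.map (τ : Qb →+* Qb) = f := by
    ext i
    rw [Polynomial.coeff_map]
    exact (mem_K0_iff A _).1 (hc i).1 τ hτ
  have hroot : f.eval (τ a) = 0 := by
    have := Polynomial.eval_map_apply (p := f) (τ : Qb →+* Qb) a
    rw [hmap, ha, map_zero] at this
    exact this
  have h3 : τ a - r ∈ A.nonunits := by
    have := Hensel.nonunits_add A (apply_sub_mem_nonunits A hτ haA) har
    rwa [sub_add_sub_cancel] at this
  exact eq_of_roots_congr A f hf (fun i => (hc i).2) hr h2 hroot ha h3 har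

theorem Hensel.one_le_prod (r : Qb) (s : Multiset Qb)
    (h : ∀ a ∈ s, 1 ≤ A.valuation (r - a)) :
    1 ≤ A.valuation ((s.map (fun a => r - a)).prod) := by
  induction s using Multiset.induction_on with
  | empty => simp
  | cons a s ih =>
    rw [Multiset.map_cons, Multiset.prod_cons, map_mul]
    exact one_le_mul (h a (Multiset.mem_cons_self a s))
      (ih (fun b hb => h b (Multiset.mem_cons_of_mem hb)))

/-- (U4) Hensel's lemma: a monic polynomial with coefficients in `A ∩ K0 A` which has a simple root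
`r ∈ A` modulo the maximal ideal of `A` has a root in `A ∩ K0 A` congruent to `r`.
[`f` splits in `ℚ̄`, its roots are integral over `A`, hence in `A`; `f(r) = ∏ (r - aᵢ)` gives a root
congruent to `r`; it is unique by `eq_of_roots_congr`, and inertia permutes the roots and acts
trivially modulo the maximal ideal.] -/
theorem exists_root_of_simple (f : Qb[X]) (hf : f.Monic)
    (hc : ∀ i, f.coeff i ∈ K0 A ∧ f.coeff i ∈ A) {r : Qb} (hr : r ∈ A)
    (h1 : f.eval r ∈ A.nonunits) (h2 : f.derivative.eval r ∉ A.nonunits) :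
    ∃ a : Qb, a ∈ K0 A ∧ a ∈ A ∧ f.eval a = 0 ∧ a - r ∈ A.nonunits := by
  have hsplit : f.Splits := IsAlgClosed.splits f
  have hprod : f = (f.roots.map (fun a => X - C a)).prod := hsplit.eq_prod_roots_of_monic hf
  have heval : f.eval r = (f.roots.map (fun a => r - a)).prod := by
    conv_lhs => rw [hprod]
    rw [Polynomial.eval_multiset_prod, Multiset.map_map]
    simp
  obtain ⟨a, ha, hlt⟩ : ∃ a ∈ f.roots, A.valuation (r - a) < 1 := by
    by_contra hcon
    push Not at hcon
    have := Hensel.one_le_prod A r f.roots hcon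
    rw [← heval] at this
    rw [ValuationSubring.mem_nonunits_iff] at h1
    exact absurd h1 (not_lt.2 this)
  have har : a - r ∈ A.nonunits := by
    have : r - a ∈ A.nonunits := (A.mem_nonunits_iff).2 hlt
    have := Hensel.nonunits_neg A this
    rwa [neg_sub] at this
  have haA : a ∈ A := by
    have := A.add_mem _ _ (Hensel.nonunits_mem A har) hr
    rwa [sub_add_cancel] at this
  have hroot : f.eval a = 0 := (Polynomial.mem_roots'.1 ha).2
  exact ⟨a, Hensel.mem_K0_of_simple_root A f hf hc hr h2 hroot har, haA, hroot, har⟩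

theorem henselianLocalRing_A0 : HenselianLocalRing (A0 A) := by
  refine { is_henselian := ?_ }
  intro F hF a₀ h1 h2
  let φ : (A0 A) →+* Qb := (algebraMap (K0 A) Qb).comp (A0 A).subtype
  have hφinj : Function.Injective φ :=
    (algebraMap (K0 A) Qb).injective.comp Subtype.val_injective
  have hφK : ∀ x : A0 A, φ x ∈ K0 A := fun x => (x : K0 A).2
  have hφA : ∀ x : A0 A, φ x ∈ A := fun x => (mem_A0_iff A _).1 x.2
  have hφm : ∀ x : A0 A, φ x ∈ A.nonunits ↔ x ∈ IsLocalRing.maximalIdeal (A0 A) := by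
    intro x
    rw [← (A0 A).coe_mem_nonunits_iff, mem_nonunits_A0_iff]
    rfl
  obtain ⟨a, haK, haA, hroot, har⟩ := exists_root_of_simple A (F.map φ) (hF.map φ)
    (fun i => by rw [Polynomial.coeff_map]; exact ⟨hφK _, hφA _⟩) (hφA a₀)
    (by rw [Polynomial.eval_map_apply, hφm]; exact h1)
    (by
      rw [Polynomial.derivative_map, Polynomial.eval_map_apply, hφm,
        IsLocalRing.mem_maximalIdeal, mem_nonunits_iff, not_not]
      exact h2)
  let a' : A0 A := ⟨⟨a, haK⟩, (mem_A0_iff A _).2 haA⟩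
  have ha' : φ a' = a := rfl
  refine ⟨a', ?_, ?_⟩
  · apply hφinj
    rw [map_zero, ← Polynomial.eval_map_apply, ha']
    exact hroot
  · rw [← hφm, map_sub, ha']
    exact har

variable (q : ℕ)

theorem Hensel.natCast_not_mem_nonunits (hq : q.Prime) (hA : A.LiesOverPrime q) {n : ℕ}
    (hn : ¬ q ∣ n) : (n : Qb) ∉ A.nonunits := by
  intro h
  have hcop : IsCoprime (q : ℤ) (n : ℤ) :=
    Nat.isCoprime_iff_coprime.2 ((Nat.Prime.coprime_iff_not_dvd hq).2 hn)
  obtain ⟨x, y, hxy⟩ := hcop
  have hxy' : (x : Qb) * q + (y : Qb) * n = 1 := by exact_mod_cast congrArg (Int.cast : ℤ → Qb) hxy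
  have hq' : (q : Qb) ∈ A.nonunits := hA
  have hmul : ∀ (z : ℤ) {w : Qb}, w ∈ A.nonunits → (z : Qb) * w ∈ A.nonunits := by
    intro z w hw
    rw [ValuationSubring.mem_nonunits_iff] at hw ⊢
    rw [map_mul]
    have hz : A.valuation (z : Qb) ≤ 1 := (A.valuation_le_one_iff _).2 (intCast_mem A z)
    exact lt_of_le_of_lt (mul_le_of_le_one_left' hz) hw
  have := Hensel.nonunits_add A (hmul x hq') (hmul y h)
  rw [hxy', ValuationSubring.mem_nonunits_iff, map_one] at this
  exact lt_irrefl _ this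

theorem Hensel.valuation_eq_one_of_pow {n : ℕ} (hn : n ≠ 0) {w : Qb}
    (h : A.valuation (w ^ n) = 1) : A.valuation w = 1 := by
  rw [map_pow] at h
  exact (pow_eq_one_iff.1 h).resolve_right hn

/-- the general statement on `X ^ n - u`. -/
theorem Hensel.key (hq : q.Prime) (hA : A.LiesOverPrime q) {n : ℕ} (hn : ¬ q ∣ n)
    {u w : Qb} (hu : A.valuation u = 1) (hw : w ^ n = u) :
    (X ^ n - C u : Qb[X]).Monic ∧ w ∈ A ∧ (X ^ n - C u : Qb[X]).eval w = 0 ∧
      (X ^ n - C u : Qb[X]).derivative.eval w ∉ A.nonunits := by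
  have hn0 : n ≠ 0 := fun h => hn (h ▸ dvd_zero q)
  have hvw : A.valuation w = 1 := Hensel.valuation_eq_one_of_pow A hn0 (by rw [hw, hu])
  refine ⟨Polynomial.monic_X_pow_sub_C u hn0, (A.valuation_le_one_iff _).1 hvw.le, by simp [hw], ?_⟩
  have hd : (X ^ n - C u : Qb[X]).derivative.eval w = n * w ^ (n - 1) := by
    simp [Polynomial.derivative_X_pow]
  rw [hd, ValuationSubring.mem_nonunits_iff, map_mul, map_pow, hvw, one_pow, mul_one,
    ← ValuationSubring.mem_nonunits_iff]
  exact Hensel.natCast_not_mem_nonunits A q hq hA hn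

theorem Hensel.coeff_mem {n : ℕ} {u : Qb} (S : Subring Qb) (hu : u ∈ S) (i : ℕ) :
    (X ^ n - C u : Qb[X]).coeff i ∈ S := by
  rw [Polynomial.coeff_sub, Polynomial.coeff_X_pow, Polynomial.coeff_C]
  refine sub_mem ?_ ?_
  · split_ifs
    · exact one_mem S
    · exact zero_mem S
  · split_ifs
    · exact hu
    · exact zero_mem S

/-- All `n`-th roots (`q ∤ n`) of a unit of `A ∩ K0 A` lie in `K0 A`. -/
theorem mem_K0_of_pow_mem (hq : q.Prime) (hA : A.LiesOverPrime q) {n : ℕ} (hn : ¬ q ∣ n)
    {u w : Qb} (hu0 : u ∈ K0 A) (hu : u ∈ A) (hu' : u⁻¹ ∈ A) (hw : w ^ n = u) : w ∈ K0 A := by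
  have hn0 : n ≠ 0 := fun h => hn (h ▸ dvd_zero q)
  by_cases hu00 : u = 0
  · rw [hu00] at hw
    rw [eq_zero_of_pow_eq_zero hw]
    exact zero_mem _
  have hvu : A.valuation u = 1 := by
    have h1 : A.valuation u ≤ 1 := (A.valuation_le_one_iff _).2 hu
    have h2 : A.valuation u⁻¹ ≤ 1 := (A.valuation_le_one_iff _).2 hu'
    refine le_antisymm h1 ?_
    rw [map_inv₀] at h2
    have hv : A.valuation u ≠ 0 := (_root_.map_ne_zero _).2 hu00
    exact (inv_le_one₀ (zero_lt_iff.2 hv)).1 h2
  obtain ⟨hm, hwA, hroot, hder⟩ := Hensel.key A q hq hA hn hvu hw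
  refine Hensel.mem_K0_of_simple_root A _ hm (fun i => ⟨?_, ?_⟩) hwA hder hroot ?_
  · exact Hensel.coeff_mem (K0 A).toSubring hu0 i
  · exact Hensel.coeff_mem A.toSubring hu i
  · rw [sub_self]
    exact Hensel.zero_mem_nonunits A

/-- Roots of unity of order prime to `q` lie in the inertia field. -/
theorem rootOfUnity_mem_K0 (hq : q.Prime) (hA : A.LiesOverPrime q) {n : ℕ} (hn : ¬ q ∣ n) {ζ : Qb}
    (hζ : ζ ^ n = 1) : ζ ∈ K0 A :=
  mem_K0_of_pow_mem A q hq hA hn (one_mem _) (one_mem _) (by rw [inv_one]; exact one_mem _) hζ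

/-- Two roots of unity of order prime to `q` which are congruent modulo the maximal ideal
are equal. -/
theorem rootOfUnity_eq_of_sub_mem (hq : q.Prime) (hA : A.LiesOverPrime q) {m n : ℕ} (hm : ¬ q ∣ m)
    (hn : ¬ q ∣ n) {ζ ξ : Qb} (hζ : ζ ^ m = 1) (hξ : ξ ^ n = 1) (h : ζ - ξ ∈ A.nonunits) :
    ζ = ξ := by
  have hmn : ¬ q ∣ m * n := fun hd => (hq.dvd_mul.1 hd).elim hm hn
  have hζ' : ζ ^ (m * n) = 1 := by rw [pow_mul, hζ, one_pow]
  have hξ' : ξ ^ (m * n) = 1 := by rw [mul_comm, pow_mul, hξ, one_pow]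
  obtain ⟨hmon, hξA, hroot, hder⟩ := Hensel.key A q hq hA hmn (map_one _) hξ'
  obtain ⟨-, -, hroot', -⟩ := Hensel.key A q hq hA hmn (map_one _) hζ'
  refine eq_of_roots_congr A _ hmon (fun i => Hensel.coeff_mem A.toSubring (one_mem _) i) hξA hder
    hroot' hroot h ?_
  rw [sub_self]
  exact Hensel.zero_mem_nonunits A

end Fermat.Agent.Lib.InertiaField
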