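import Mathlib
import Fermat.Agent.Lib.InertiaField.Defs
import Fermat.Agent.Lib.InertiaField.Hensel

/-!
# The residue field of the inertia field
(statements: helper71; proofs: helper153)
-/

set_option autoImplicit false

namespace Fermat.Agent.Lib.InertiaField

open Fermat.Agent.Lib.Frobenius Polynomial

variable (A : ValuationSubring Qb) (q : ℕ)

private theorem residue_eq_zero_iff' {L : Type*} [Field L] (B : ValuationSubring L) {x : L}
    (hx : x ∈ B) : IsLocalRing.residue B ⟨x, hx⟩ = 0 ↔ x ∈ B.nonunits := by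
  rw [IsLocalRing.residue_eq_zero_iff, ValuationSubring.mem_nonunits_iff_exists_mem_maximalIdeal]
  exact ⟨fun h => ⟨hx, h⟩, fun ⟨_, h⟩ => h⟩

private theorem mem_of_isIntegral' {L : Type*} [Field L] (B : ValuationSubring L) {x : L}
    (hx : IsIntegral B x) : x ∈ B := by
  obtain ⟨y, hy⟩ := (IsIntegrallyClosed.isIntegral_iff (R := B) (K := L)).mp hx
  rw [← hy]
  exact y.2

theorem isAlgClosed_residueField : IsAlgClosed (IsLocalRing.ResidueField A) := by
  refine IsAlgClosed.of_exists_root _ fun p hp hirr => ?_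
  have hl : p ∈ Polynomial.lifts (IsLocalRing.residue A) := by
    rw [Polynomial.mem_lifts]
    exact Polynomial.map_surjective _ IsLocalRing.residue_surjective p
  obtain ⟨P, hPmap, hPdeg, hPmonic⟩ := Polynomial.lifts_and_degree_eq_and_monic hl hp
  have hdeg : (P.map (algebraMap A Qb)).degree ≠ 0 := by
    rw [(hPmonic).degree_map, hPdeg]
    exact (Polynomial.degree_pos_of_irreducible hirr).ne'
  obtain ⟨z, hz⟩ := IsAlgClosed.exists_root (P.map (algebraMap A Qb)) hdeg
  rw [IsRoot.def, eval_map] at hz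
  have hzint : IsIntegral A z := ⟨P, hPmonic, hz⟩
  have hzA : z ∈ A := mem_of_isIntegral' A hzint
  refine ⟨IsLocalRing.residue A ⟨z, hzA⟩, ?_⟩
  have h0 : P.eval (⟨z, hzA⟩ : A) = 0 := by
    apply FaithfulSMul.algebraMap_injective A Qb
    rw [map_zero, ← eval₂_at_apply]
    exact hz
  rw [← hPmap, eval_map, eval₂_at_apply, h0, map_zero]

private theorem charP_of_mem_nonunits {L : Type*} [Field L] (B : ValuationSubring L)
    (hq : q.Prime) (hB : (q : L) ∈ B.nonunits) : CharP (IsLocalRing.ResidueField B) q := by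
  obtain ⟨p, hp⟩ := CharP.exists (IsLocalRing.ResidueField B)
  have h0 : ((q : ℕ) : IsLocalRing.ResidueField B) = 0 := by
    have hqB : (q : L) ∈ B := natCast_mem B q
    have := (residue_eq_zero_iff' B hqB).mpr hB
    rw [← this, ← map_natCast (IsLocalRing.residue B)]
    rfl
  have hdvd : p ∣ q := (CharP.cast_eq_zero_iff _ p q).mp h0
  rcases (Nat.dvd_prime hq).mp hdvd with h1 | h1
  · exact absurd h1 (CharP.char_ne_one (IsLocalRing.ResidueField B) p)
  · rwa [h1] at hp

theorem charP_residueField (hq : q.Prime) (hA : A.LiesOverPrime q) :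
    CharP (IsLocalRing.ResidueField A) q :=
  charP_of_mem_nonunits q A hq hA

theorem charP_residueField_A0 (hq : q.Prime) (hA : A.LiesOverPrime q) :
    CharP (IsLocalRing.ResidueField (A0 A)) q :=
  charP_of_mem_nonunits q (A0 A) hq (by
    rw [mem_nonunits_A0_iff]
    have h : ((q : K0 A) : Qb) = (q : Qb) := by simp
    rw [h]
    exact hA)

private theorem isIntegral_residue [CharP (IsLocalRing.ResidueField A) q]
    [Algebra (ZMod q) (IsLocalRing.ResidueField A)] {y : Qb} (hy : IsIntegral ℤ y) (hyA : y ∈ A) :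
    IsIntegral (ZMod q) (IsLocalRing.residue A ⟨y, hyA⟩) := by
  have h1 : IsIntegral ℤ (⟨y, hyA⟩ : A) :=
    (isIntegral_algebraMap_iff (FaithfulSMul.algebraMap_injective A Qb)).mp hy
  exact IsIntegral.map_of_comp_eq (Int.castRingHom (ZMod q)) (IsLocalRing.residue A)
    (Subsingleton.elim _ _) h1

/-- Some power `a ^ n`, `q ∤ n`, of a unit `a` of `A` is congruent to `1`
(the residue field of `A` is algebraic over `𝔽_q`). -/
theorem exists_pow_sub_one_mem (hq : q.Prime) (hA : A.LiesOverPrime q) {a : Qb} (ha : a ∈ A)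
    (ha' : a ∉ A.nonunits) : ∃ n : ℕ, ¬ q ∣ n ∧ a ^ n - 1 ∈ A.nonunits := by
  haveI : Fact q.Prime := ⟨hq⟩
  haveI := charP_residueField A q hq hA
  letI : Algebra (ZMod q) (IsLocalRing.ResidueField A) := ZMod.algebra _ q
  obtain ⟨b, c, hb, hc, hbu, hbc⟩ := exists_integral_fraction A a ha
  have hbA := mem_valuationSubring_of_isIntegral A hb
  have hcA := mem_valuationSubring_of_isIntegral A hc
  set x := IsLocalRing.residue A ⟨a, ha⟩ with hx
  have hx0 : x ≠ 0 := fun h => ha' ((residue_eq_zero_iff' A ha).mp h)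
  have hb0 : IsLocalRing.residue A ⟨b, hbA⟩ ≠ 0 := fun h => hbu ((residue_eq_zero_iff' A hbA).mp h)
  have hmul : x * IsLocalRing.residue A ⟨b, hbA⟩ = IsLocalRing.residue A ⟨c, hcA⟩ := by
    rw [hx, ← map_mul]
    congr 1
    exact Subtype.ext hbc
  have hxint : IsIntegral (ZMod q) x := by
    have : x = IsLocalRing.residue A ⟨c, hcA⟩ * (IsLocalRing.residue A ⟨b, hbA⟩)⁻¹ := by
      rw [← hmul, mul_assoc, mul_inv_cancel₀ hb0, mul_one]
    rw [this]
    exact (isIntegral_residue A q hc hcA).mul (isIntegral_residue A q hb hbA).inv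
  haveI : FiniteDimensional (ZMod q) (IntermediateField.adjoin (ZMod q) {x}) :=
    IntermediateField.adjoin.finiteDimensional hxint
  haveI : Finite (IntermediateField.adjoin (ZMod q) {x}) := Module.finite_of_finite (ZMod q)
  haveI : Fintype (IntermediateField.adjoin (ZMod q) {x}) := Fintype.ofFinite _
  haveI : CharP (IntermediateField.adjoin (ZMod q) {x}) q :=
    charP_of_injective_algebraMap (algebraMap (ZMod q) _).injective q
  obtain ⟨d, -, hd⟩ := FiniteField.card (IntermediateField.adjoin (ZMod q) {x}) q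
  let g : IntermediateField.adjoin (ZMod q) {x} :=
    ⟨x, IntermediateField.mem_adjoin_simple_self (ZMod q) x⟩
  have hg0 : g ≠ 0 := fun h => hx0 (congrArg Subtype.val h)
  have hg := FiniteField.pow_card_sub_one_eq_one g hg0
  rw [hd] at hg
  have hxn : x ^ (q ^ (d : ℕ) - 1) = 1 := congrArg Subtype.val hg
  refine ⟨q ^ (d : ℕ) - 1, ?_, ?_⟩
  · intro hdvd
    have h1 : q ∣ q ^ (d : ℕ) := dvd_pow_self q d.ne_zero
    have h2 : 1 ≤ q ^ (d : ℕ) := Nat.one_le_pow _ _ hq.pos
    have h3 : q ∣ 1 := by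
      have := (Nat.dvd_sub h1 hdvd)
      rwa [Nat.sub_sub_self h2] at this
    exact hq.one_lt.ne' (Nat.dvd_one.mp h3)
  · have hmem : a ^ (q ^ (d : ℕ) - 1) - 1 ∈ A := A.sub_mem (pow_mem ha _) A.one_mem
    rw [← residue_eq_zero_iff' A hmem]
    have : (⟨a ^ (q ^ (d : ℕ) - 1) - 1, hmem⟩ : A) = (⟨a, ha⟩ : A) ^ (q ^ (d : ℕ) - 1) - 1 := rfl
    rw [this, map_sub, map_pow, map_one, ← hx, hxn, sub_self]

private theorem mul_mem_nonunits' {x y : Qb} (hx : x ∈ A) (hy : y ∈ A.nonunits) :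
    x * y ∈ A.nonunits := by
  rw [ValuationSubring.mem_nonunits_iff_exists_mem_maximalIdeal] at hy ⊢
  obtain ⟨hyA, hy⟩ := hy
  exact ⟨A.mul_mem _ _ hx hyA, Ideal.mul_mem_left _ (⟨x, hx⟩ : A) hy⟩

private theorem add_mem_nonunits' {x y : Qb} (hx : x ∈ A.nonunits) (hy : y ∈ A.nonunits) :
    x + y ∈ A.nonunits := by
  rw [ValuationSubring.mem_nonunits_iff_exists_mem_maximalIdeal] at hx hy ⊢
  obtain ⟨hxA, hx⟩ := hx
  obtain ⟨hyA, hy⟩ := hy
  exact ⟨A.add_mem _ _ hxA hyA, Ideal.add_mem _ hx hy⟩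

private theorem one_notMem_nonunits' : (1 : Qb) ∉ A.nonunits := by
  rw [ValuationSubring.mem_nonunits_iff, map_one]
  exact lt_irrefl _

private theorem natCast_notMem_nonunits (hq : q.Prime) (hA : A.LiesOverPrime q) {n : ℕ}
    (hn : ¬ q ∣ n) : (n : Qb) ∉ A.nonunits := by
  intro h
  have hcop : IsCoprime (q : ℤ) (n : ℤ) :=
    Nat.isCoprime_iff_coprime.mpr ((Nat.Prime.coprime_iff_not_dvd hq).mpr hn)
  obtain ⟨u, v, huv⟩ := hcop
  apply one_notMem_nonunits' A
  have h1 : (1 : Qb) = (u : Qb) * (q : Qb) + (v : Qb) * (n : Qb) := by exact_mod_cast huv.symm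
  rw [h1]
  exact add_mem_nonunits' A (mul_mem_nonunits' A (intCast_mem A u) hA)
    (mul_mem_nonunits' A (intCast_mem A v) h)

private theorem mul_notMem_nonunits' {x y : Qb} (hx : x ∉ A.nonunits) (hy : y ∉ A.nonunits) :
    x * y ∉ A.nonunits := by
  rw [ValuationSubring.mem_nonunits_iff, not_lt] at hx hy ⊢
  rw [map_mul]
  exact one_le_mul hx hy

private theorem pow_notMem_nonunits' {x : Qb} (hx : x ∉ A.nonunits) (n : ℕ) :
    x ^ n ∉ A.nonunits := by
  induction n with
  | zero => rw [pow_zero]; exact one_notMem_nonunits' A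
  | succ n ih => rw [pow_succ]; exact mul_notMem_nonunits' A ih hx

private theorem exists_rootOfUnity_aux (hq : q.Prime) (hA : A.LiesOverPrime q) {a : Qb}
    (ha : a ∈ A) (ha' : a ∉ A.nonunits) :
    ∃ (ζ : Qb) (n : ℕ), ¬ q ∣ n ∧ ζ ^ n = 1 ∧ a - ζ ∈ A.nonunits ∧ ζ ∈ K0 A ∧ ζ ∈ A := by
  obtain ⟨n, hn, han⟩ := exists_pow_sub_one_mem A q hq hA ha ha'
  have hn0 : n ≠ 0 := fun h => hn (h ▸ dvd_zero q)
  obtain ⟨ζ, hζK, hζA, hζ, hζa⟩ := exists_root_of_simple A (X ^ n - C (1 : Qb))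
    (monic_X_pow_sub_C 1 hn0) (fun i => by
      rw [coeff_sub, coeff_X_pow, coeff_C]
      constructor
      · refine sub_mem ?_ ?_ <;> split_ifs <;> first | exact one_mem _ | exact zero_mem _
      · refine sub_mem ?_ ?_ <;> split_ifs <;> first | exact one_mem _ | exact zero_mem _)
    ha (by simpa using han) (by
      have : (derivative (X ^ n - C (1 : Qb))).eval a = (n : Qb) * a ^ (n - 1) := by
        simp [derivative_X_pow]
      rw [this]
      exact mul_notMem_nonunits' A (natCast_notMem_nonunits A q hq hA hn)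
        (pow_notMem_nonunits' A ha' _))
  refine ⟨ζ, n, hn, ?_, ?_, hζK, hζA⟩
  · have : ζ ^ n - 1 = 0 := by simpa using hζ
    exact sub_eq_zero.mp this
  · have h := mul_mem_nonunits' A (A.neg_mem _ A.one_mem) hζa
    have e : -1 * (ζ - a) = a - ζ := by ring
    rwa [e] at h

/-- (U2) every unit of `A` is congruent to a root of unity of order prime to `q`. -/
theorem exists_rootOfUnity_sub_mem (hq : q.Prime) (hA : A.LiesOverPrime q) {a : Qb} (ha : a ∈ A)
    (ha' : a ∉ A.nonunits) :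
    ∃ (ζ : Qb) (n : ℕ), ¬ q ∣ n ∧ ζ ^ n = 1 ∧ a - ζ ∈ A.nonunits := by
  obtain ⟨ζ, n, h1, h2, h3, -, -⟩ := exists_rootOfUnity_aux A q hq hA ha ha'
  exact ⟨ζ, n, h1, h2, h3⟩

/-- (U2) `A0 A` and `A` have the same residue field. -/
theorem exists_mem_K0_sub_mem (hq : q.Prime) (hA : A.LiesOverPrime q) {a : Qb} (ha : a ∈ A) :
    ∃ b : Qb, b ∈ K0 A ∧ b ∈ A ∧ a - b ∈ A.nonunits := by
  by_cases ha' : a ∈ A.nonunits
  · exact ⟨0, zero_mem _, zero_mem _, by rwa [sub_zero]⟩
  · obtain ⟨ζ, n, -, -, h3, h4, h5⟩ := exists_rootOfUnity_aux A q hq hA ha ha'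
    exact ⟨ζ, h4, h5, h3⟩

/-- the inclusion `A0 A → A`. -/
private noncomputable def inclA0 : A0 A →+* A :=
  ((algebraMap (K0 A) Qb).comp (A0 A).subtype).codRestrict A.toSubring (fun x => x.2)

private theorem isLocalHom_inclA0 : IsLocalHom (inclA0 A) := by
  refine ⟨fun x hx => ?_⟩
  by_contra hcon
  have h1 : x ∈ IsLocalRing.maximalIdeal (A0 A) := (IsLocalRing.mem_maximalIdeal x).mpr hcon
  have h2 : (x : K0 A) ∈ (A0 A).nonunits :=
    (ValuationSubring.mem_nonunits_iff_exists_mem_maximalIdeal).mpr ⟨x.2, h1⟩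
  rw [mem_nonunits_A0_iff, ValuationSubring.mem_nonunits_iff_exists_mem_maximalIdeal] at h2
  obtain ⟨h3, h4⟩ := h2
  exact (IsLocalRing.mem_maximalIdeal _).mp h4 hx

theorem isAlgClosed_residueField_A0 (hq : q.Prime) (hA : A.LiesOverPrime q) :
    IsAlgClosed (IsLocalRing.ResidueField (A0 A)) := by
  haveI := isLocalHom_inclA0 A
  haveI := isAlgClosed_residueField A
  have hbij : Function.Bijective (IsLocalRing.ResidueField.map (inclA0 A)) := by
    refine ⟨RingHom.injective _, fun y => ?_⟩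
    obtain ⟨⟨a, ha⟩, rfl⟩ := IsLocalRing.residue_surjective y
    obtain ⟨b, hbK, hbA, hab⟩ := exists_mem_K0_sub_mem A q hq hA ha
    refine ⟨IsLocalRing.residue (A0 A) ⟨⟨b, hbK⟩, hbA⟩, ?_⟩
    rw [IsLocalRing.ResidueField.map_residue]
    symm
    rw [← sub_eq_zero, ← map_sub]
    exact (residue_eq_zero_iff' A (A.sub_mem ha hbA)).mpr hab
  exact IsAlgClosed.of_ringEquiv _ _ (RingEquiv.ofBijective _ hbij).symm

end Fermat.Agent.Lib.InertiaField
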