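import Mathlib

/-!
# The inertia field is unramified (finite level)
-/

set_option autoImplicit false

namespace Fermat.Agent.Lib.InertiaField

open NumberField Ideal MulAction Pointwise

section general

variable (A K L : Type*) {B : Type*} [Field K] [Field L] [Algebra K L] [CommRing A] [CommRing B]
  [Algebra A B] {p : Ideal A} (P : Ideal B) [P.LiesOver p]
variable [Algebra A K] [IsFractionRing A K] [Algebra A L] [IsScalarTower A K L] [Algebra B L]
  [IsScalarTower A B L] [IsFractionRing B L] [MulSemiringAction Gal(L/K) B]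
  [SMulDistribClass Gal(L/K) B L]
variable (E 𝓞E : Type*) [Field E] [Algebra E L] [IsInertiaField K L P E] [CommRing 𝓞E]
  [Algebra 𝓞E E] [IsFractionRing 𝓞E E] [Algebra 𝓞E B] [Algebra 𝓞E L] [IsScalarTower 𝓞E E L]
  [IsScalarTower 𝓞E B L] (𝓟E : Ideal 𝓞E) [hE : P.LiesOver 𝓟E]
variable [IsGalois K L] [IsDedekindDomain A] [IsDedekindDomain B] [Module.Finite A B]
  [Module.IsTorsionFree A B] [Algebra A 𝓞E] [Module.Finite A 𝓞E] [IsScalarTower A 𝓞E B]
  [IsDedekindDomain 𝓞E] [𝓟E.LiesOver p]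
variable [FiniteDimensional K L] [Ring.HasFiniteQuotients A] [𝓟E.IsMaximal] [P.IsMaximal]

include K L E P in
theorem ramificationIdx_inertiaField_eq_one (hp : p ≠ ⊥) :
    𝓟E.ramificationIdx A = 1 := by
  have inst₁ : Module.Finite 𝓞E B := Module.Finite.right A 𝓞E B
  have inst₂ : Module.IsTorsionFree 𝓞E B := by
    rw [Module.isTorsionFree_iff_faithfulSMul]
    apply Algebra.IsAlgebraic.faithfulSMul_tower_top A
  have inst₃ : Module.IsTorsionFree A 𝓞E := Module.IsTorsionFree.of_faithfulSMul _ _ B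
  have inst₄ : IsGaloisGroup Gal(L/K) A B := .of_isFractionRing _ _ _ K L
  have inst₅ : IsGaloisGroup (inertia Gal(L/K) P) 𝓞E B := .of_isFractionRing _ _ _ E L
  have h𝓟 : 𝓟E ≠ ⊥ := Ideal.ne_bot_of_liesOver_of_ne_bot hp 𝓟E
  have hpmax : p.IsMaximal := over_def P p ▸ Ideal.IsMaximal.under A P
  have hfin : Finite (A ⧸ p) := Ring.HasFiniteQuotients.finiteQuotient hp
  have hfinE : Finite (𝓞E ⧸ 𝓟E) :=
    have := Ring.HasFiniteQuotients.of_module_finite A 𝓞E
    Ring.HasFiniteQuotients.finiteQuotient h𝓟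
  have h1 : Nat.card (inertia Gal(L/K) P) = p.ramificationIdxIn B :=
    card_inertia_eq_ramificationIdxIn p P
  have h2 : Nat.card (inertia (inertia Gal(L/K) P) P) = 𝓟E.ramificationIdxIn B :=
    card_inertia_eq_ramificationIdxIn 𝓟E P
  have h3 : inertia (inertia Gal(L/K) P) P = ⊤ := by
    rw [eq_top_iff]
    intro σ _
    exact Ideal.coe_mem_inertia.mp σ.2
  have h4 : 𝓟E.ramificationIdxIn B = p.ramificationIdxIn B := by
    rw [← h2, ← h1, h3, Subgroup.card_top]
  have := ramificationIdx_tower (R := A) 𝓟E P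
  rwa [← ramificationIdxIn_eq_ramificationIdx 𝓟E P (inertia Gal(L/K) P),
    h4, ramificationIdxIn_eq_ramificationIdx p P Gal(L/K),
    right_eq_mul₀ <| (ramificationIdx_pos P A).ne'] at this

end general

/-- If `𝔮` is a prime of a domain `S` of ramification index one over `ℤ`, lying over `q`, then every
element of `𝔮` is, up to a factor outside `𝔮`, divisible by `q`. -/
theorem exists_mul_eq_of_ramificationIdx_eq_one {S : Type*} [CommRing S] [IsDomain S]
    (𝔮 : Ideal S) [𝔮.IsPrime] (q : ℕ) (hq : 𝔮.under ℤ = Ideal.span {(q : ℤ)})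
    (he : 𝔮.ramificationIdx ℤ = 1) (x : S) (hx : x ∈ 𝔮) :
    ∃ s y : S, s ∉ 𝔮 ∧ s * x = q * y := by
  rw [ramificationIdx_def, ENat.toNat_eq_iff_eq_natCast, Nat.cast_one, Module.length_eq_one_iff,
    isSimpleModule_iff_isCoatom, ← Ideal.isMaximal_def, IsLocalRing.isMaximal_iff, hq,
    Ideal.map_span, Set.image_singleton] at he
  have hx' : algebraMap S (Localization.AtPrime 𝔮) x ∈
      IsLocalRing.maximalIdeal (Localization.AtPrime 𝔮) := by
    rw [← Localization.AtPrime.map_eq_maximalIdeal]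
    exact Ideal.mem_map_of_mem _ hx
  rw [← he, Ideal.mem_span_singleton] at hx'
  obtain ⟨z, hz⟩ := hx'
  obtain ⟨y, s, rfl⟩ := IsLocalization.exists_mk'_eq 𝔮.primeCompl z
  refine ⟨s, y, s.2, ?_⟩
  apply IsLocalization.injective (Localization.AtPrime 𝔮) 𝔮.primeCompl_le_nonZeroDivisors
  rw [map_mul, hz, map_mul, mul_left_comm, IsLocalization.mul_mk'_eq_mk'_of_mul,
    IsLocalization.mk'_mul_cancel_left]
  simp

/-- Finite level: an algebraic integer of a Galois number field `L` which is fixed by the inertia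
group of a prime `P` over `q` and lies in `P` is divisible by `q` locally at `P`. -/
theorem exists_mul_eq_of_fixed (L : Type*) [Field L] [NumberField L] [IsGalois ℚ L] (q : ℕ)
    (hq : q.Prime) (P : Ideal (𝓞 L)) [P.IsPrime] (hP : (q : 𝓞 L) ∈ P) (x : 𝓞 L) (hx : x ∈ P)
    (hfix : ∀ g ∈ P.inertia Gal(L/ℚ), g • x = x) :
    ∃ s y : 𝓞 L, s ∉ P ∧ s * x = q * y := by
  let E : IntermediateField ℚ L := FixedPoints.intermediateField (inertia Gal(L/ℚ) P)
  have hpprime : (span {(q : ℤ)}).IsPrime :=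
    (span_singleton_prime (by exact_mod_cast hq.ne_zero)).mpr (Nat.prime_iff_prime_int.mp hq)
  have hpmax : (span {(q : ℤ)}).IsMaximal :=
    hpprime.isMaximal (by simpa using hq.ne_zero)
  have hlo : P.LiesOver (span {(q : ℤ)}) := by
    refine ⟨hpmax.eq_of_le ?_ ?_⟩
    · exact (Ideal.IsPrime.under ℤ P).ne_top
    · rw [span_singleton_le_iff_mem, Ideal.mem_comap]
      simpa using hP
  have hP0 : P ≠ ⊥ := by
    rintro rfl
    have : (q : 𝓞 L) = 0 := by simpa using hP
    exact hq.ne_zero (by exact_mod_cast this)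
  have hPmax : P.IsMaximal := Ideal.IsPrime.isMaximal inferInstance hP0
  let 𝓟E : Ideal (𝓞 E) := P.under (𝓞 E)
  have h1 : P.LiesOver 𝓟E := ⟨rfl⟩
  have h2 : 𝓟E.LiesOver (span {(q : ℤ)}) := by
    refine ⟨?_⟩
    rw [hlo.over]
    exact (Ideal.under_under (A := ℤ) (B := 𝓞 E) P).symm
  have h3 : 𝓟E.IsMaximal := Ideal.IsMaximal.under (𝓞 E) P
  have he : 𝓟E.ramificationIdx ℤ = 1 :=
    ramificationIdx_inertiaField_eq_one ℤ ℚ L P E (𝓞 E) 𝓟E (p := span {(q : ℤ)})
      (by simpa using hq.ne_zero)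
  have hxE : (x : L) ∈ E := by
    intro g
    exact congrArg (algebraMap (𝓞 L) L) (hfix g.1 g.2)
  have hxint : IsIntegral ℤ (⟨(x : L), hxE⟩ : E) := by
    have := x.2
    rw [← isIntegral_algebraMap_iff (FaithfulSMul.algebraMap_injective E L)]
    exact this
  let x' : 𝓞 E := ⟨⟨(x : L), hxE⟩, hxint⟩
  have hx'x : algebraMap (𝓞 E) (𝓞 L) x' = x := by
    apply FaithfulSMul.algebraMap_injective (𝓞 L) L
    rfl
  have hx' : x' ∈ 𝓟E := by
    show algebraMap (𝓞 E) (𝓞 L) x' ∈ P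
    rw [hx'x]; exact hx
  obtain ⟨s, y, hs, hsy⟩ := exists_mul_eq_of_ramificationIdx_eq_one 𝓟E q h2.over.symm he x' hx'
  refine ⟨algebraMap (𝓞 E) (𝓞 L) s, algebraMap (𝓞 E) (𝓞 L) y, hs, ?_⟩
  rw [← hx'x, ← map_mul, hsy, map_mul, map_natCast]

end Fermat.Agent.Lib.InertiaField
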