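import Mathlib
import Fermat.Prelude.Def_FLTPrelim_Ramification
import Fermat.Agent.Lib.Frobenius
import Fermat.Agent.S13.MinkowskiLift
import Fermat.Agent.Lib.InertiaField.Finite

/-!
# The inertia field of a valuation subring of `ℚ̄` is unramified: core statement
-/

set_option autoImplicit false
set_option linter.style.haveILetI false

namespace Fermat.Agent.Lib.InertiaField

open scoped Pointwise NumberField
open Fermat.Agent.Lib.Frobenius Fermat.Agent.S13.Minkowski

local notation "Qbar" => AlgebraicClosure ℚ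
local notation "GQ" => (AlgebraicClosure ℚ ≃ₐ[ℚ] AlgebraicClosure ℚ)

/-- Core claim, integral case: an algebraic integer fixed by the inertia subgroup of `A` and lying
in the maximal ideal of `A` is divisible by `q` in `A`. -/
theorem div_mem_of_isIntegral (A : ValuationSubring Qbar) (q : ℕ) (hq : q.Prime)
    (hA : A.LiesOverPrime q) (x : Qbar) (hxint : IsIntegral ℤ x) (hx : x ∈ A.nonunits)
    (hfix : ∀ τ ∈ A.inertiaSubgroupIn ℚ, τ x = x) : x / q ∈ A := by
  classical
  haveI := isGalois_rat
  haveI := isIntegral_rat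
  have hxQ : IsIntegral ℚ x := Algebra.IsIntegral.isIntegral x
  haveI : FiniteDimensional ℚ (IntermediateField.adjoin ℚ {x}) :=
    IntermediateField.adjoin.finiteDimensional hxQ
  let L : IntermediateField ℚ Qbar :=
    IntermediateField.normalClosure ℚ (IntermediateField.adjoin ℚ {x}) Qbar
  haveI : FiniteDimensional ℚ L := normalClosure.is_finiteDimensional _ _ _
  haveI : Normal ℚ L := normalClosure.normal _ _ _
  haveI : IsGalois ℚ L := ⟨⟩
  haveI : NumberField L := ⟨⟩
  have hxL : x ∈ L :=
    (IntermediateField.le_normalClosure (IntermediateField.adjoin ℚ {x}))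
      (IntermediateField.mem_adjoin_simple_self ℚ x)
  set J : Subgroup GQ := L.fixingSubgroup with hJ
  haveI : J.Normal := (InfiniteGalois.normal_iff_isGalois L).2 inferInstance
  have hclosed : IsClosed (J : Set GQ) := IntermediateField.fixingSubgroup_isClosed L
  have hint : ∀ y : 𝓞 L, IsIntegral ℤ (((y : L) : Qbar)) := fun y =>
    (y.2 : IsIntegral ℤ (y : L)).map (IsScalarTower.toAlgHom ℤ L Qbar)
  let f : 𝓞 L →+* A :=
    { toFun := fun y => ⟨((y : L) : Qbar), mem_valuationSubring_of_isIntegral A (hint y)⟩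
      map_one' := rfl
      map_mul' := fun _ _ => rfl
      map_zero' := rfl
      map_add' := fun _ _ => rfl }
  let P : Ideal (𝓞 L) := (IsLocalRing.maximalIdeal A).comap f
  haveI : P.IsPrime := Ideal.comap_isPrime _ _
  have hmemP : ∀ y : 𝓞 L, y ∈ P ↔ (((y : L) : Qbar)) ∈ A.nonunits := by
    intro y
    rw [ValuationSubring.mem_nonunits_iff_exists_mem_maximalIdeal]
    constructor
    · intro h
      exact ⟨mem_valuationSubring_of_isIntegral A (hint y), h⟩
    · rintro ⟨_, h⟩
      exact h
  have hqP : (q : 𝓞 L) ∈ P := by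
    rw [hmemP]
    have h0 : (q : Qbar) ∈ A.nonunits := hA
    simpa using h0
  have hxi : IsIntegral ℤ (⟨x, hxL⟩ : L) :=
    (isIntegral_algebraMap_iff (A := L) (B := Qbar) (algebraMap L Qbar).injective).1 hxint
  let x' : 𝓞 L := ⟨⟨x, hxL⟩, hxi⟩
  have hx'P : x' ∈ P := by
    rw [hmemP]; exact hx
  have hfix' : ∀ g ∈ P.inertia Gal(L/ℚ), g • x' = x' := by
    intro g hg
    obtain ⟨γ, hγ⟩ := AlgEquiv.restrictNormalHom_surjective Qbar g
    have hγL : ∀ y : L, γ (y : Qbar) = ((g y : L) : Qbar) := by
      intro y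
      rw [← hγ]
      exact (AlgEquiv.restrictNormal_commutes γ L y).symm
    obtain ⟨j, hj, hjγ⟩ := exists_mul_mem_inertia J hclosed A γ (by
      intro y hy hfixy
      have hyL : y ∈ L := by
        have h1 : IntermediateField.fixedField L.fixingSubgroup = L :=
          InfiniteGalois.fixedField_fixingSubgroup L
        rw [← h1]
        exact fun j => hfixy j.1 j.2
      have hyi : IsIntegral ℤ (⟨y, hyL⟩ : L) :=
        (isIntegral_algebraMap_iff (A := L) (B := Qbar) (algebraMap L Qbar).injective).1 hy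
      let y' : 𝓞 L := ⟨⟨y, hyL⟩, hyi⟩
      have h2 : g • y' - y' ∈ P := hg y'
      have h2' := (hmemP _).1 h2
      rw [hγL ⟨y, hyL⟩]
      exact h2')
    have h3 := hfix _ hjγ
    have h4 : γ x = ((g ⟨x, hxL⟩ : L) : Qbar) := hγL ⟨x, hxL⟩
    have h5 : (j * γ) x = γ x := by
      show j (γ x) = γ x
      rw [h4]
      exact hj (g ⟨x, hxL⟩)
    rw [h5, h4] at h3
    apply FaithfulSMul.algebraMap_injective (𝓞 L) L
    apply Subtype.ext
    exact h3
  obtain ⟨s, y, hs, hsy⟩ := exists_mul_eq_of_fixed L q hq P hqP x' hx'P hfix'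
  have hq0 : (q : Qbar) ≠ 0 := by exact_mod_cast hq.ne_zero
  have hs' : (((s : L) : Qbar)) ∉ A.nonunits := fun h => hs ((hmemP s).2 h)
  have hsA : (((s : L) : Qbar)) ∈ A := mem_valuationSubring_of_isIntegral A (hint s)
  have hyA : (((y : L) : Qbar)) ∈ A := mem_valuationSubring_of_isIntegral A (hint y)
  have heq : (((s : L) : Qbar)) * x = q * (((y : L) : Qbar)) := by
    have h1 := congrArg (fun z : 𝓞 L => (f z : Qbar)) hsy
    simp only [map_mul, map_natCast] at h1
    exact h1
  have hs0 : (((s : L) : Qbar)) ≠ 0 := by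
    intro h0
    apply hs'
    rw [h0, ValuationSubring.mem_nonunits_iff, map_zero]
    exact zero_lt_one
  have hsinv : (((s : L) : Qbar))⁻¹ ∈ A := by
    rw [ValuationSubring.mem_nonunits_iff, not_lt] at hs'
    rw [← A.valuation_le_one_iff, map_inv₀]
    exact inv_le_one_of_one_le₀ hs'
  have : x / q = (((y : L) : Qbar)) * (((s : L) : Qbar))⁻¹ := by
    field_simp
    linear_combination heq
  rw [this]
  exact A.mul_mem _ _ hyA hsinv

end Fermat.Agent.Lib.InertiaField
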