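import Mathlib
import Fermat.Agent.Lib.InertiaField.Defs
import Fermat.Agent.Lib.InertiaField.Core

/-!
# The inertia field is unramified: `A0 A` is a discrete valuation ring with uniformiser `q`
-/

set_option autoImplicit false

namespace Fermat.Agent.Lib.InertiaField

open Fermat.Agent.Lib.Frobenius

variable (A : ValuationSubring Qb) (q : ℕ)

namespace Unram

variable {A q}

theorem isAlgebraic_int (x : Qb) : IsAlgebraic ℤ x := by
  have := isIntegral_rat
  exact (IsFractionRing.isAlgebraic_iff ℤ ℚ Qb).mpr (Algebra.IsAlgebraic.isAlgebraic x)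

theorem inv_mem_of_not_mem_nonunits {x : Qb} (hx : x ∉ A.nonunits) : x⁻¹ ∈ A := by
  rw [ValuationSubring.mem_nonunits_iff, not_lt] at hx
  rw [← A.valuation_le_one_iff, map_inv₀]
  exact inv_le_one_of_one_le₀ hx

theorem not_mem_nonunits_of_inv_mem {x : Qb} (hx0 : x ≠ 0) (hx : x⁻¹ ∈ A) : x ∉ A.nonunits := by
  rw [ValuationSubring.mem_nonunits_iff, not_lt]
  rw [← A.valuation_le_one_iff, map_inv₀] at hx
  have hv : A.valuation x ≠ 0 := (map_ne_zero _).2 hx0
  exact (inv_le_one₀ (zero_lt_iff.2 hv)).mp hx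

theorem mul_mem_nonunits {x y : Qb} (hx : x ∈ A.nonunits) (hy : y ∈ A) : x * y ∈ A.nonunits := by
  rw [ValuationSubring.mem_nonunits_iff] at hx ⊢
  rw [← A.valuation_le_one_iff] at hy
  rw [map_mul]
  calc A.valuation x * A.valuation y ≤ A.valuation x * 1 := mul_le_mul_right hy _
    _ = A.valuation x := mul_one _
    _ < 1 := hx

theorem valuation_intCast_eq_one (hq : q.Prime) (hA : A.LiesOverPrime q) {n : ℤ}
    (h : ¬ (q : ℤ) ∣ n) : A.valuation (n : Qb) = 1 := by
  have hle : A.valuation (n : Qb) ≤ 1 := (A.valuation_le_one_iff _).mpr (intCast_mem A n)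
  refine le_antisymm hle (not_lt.mp fun hlt => ?_)
  obtain ⟨a, b, hab⟩ := ((Nat.prime_iff_prime_int.mp hq).coprime_iff_not_dvd).mpr h
  have hq1 : (q : Qb) ∈ A.nonunits := hA
  have hn1 : (n : Qb) ∈ A.nonunits := (A.mem_nonunits_iff).mpr hlt
  have h1 := mul_mem_nonunits hq1 (intCast_mem A a)
  have h2 := mul_mem_nonunits hn1 (intCast_mem A b)
  rw [ValuationSubring.mem_nonunits_iff] at h1 h2
  have h3 := Valuation.map_add_lt _ h1 h2
  have h4 : (q : Qb) * (a : Qb) + (n : Qb) * (b : Qb) = 1 := by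
    have := congrArg (Int.cast : ℤ → Qb) hab
    push_cast at this
    rw [← this]
    ring
  rw [h4, map_one] at h3
  exact lt_irrefl _ h3

end Unram

open Unram

/-- (U1-core) an element of the inertia field lying in the maximal ideal of `A` is divisible by
`q` in `A`.  [Apply `Lib.Frobenius.exists_integral_fraction_of_isAlgebraic` to the field `K0 A` and
its valuation subring `A0 A`, then `div_mem_of_isIntegral`.] -/
theorem div_mem (hq : q.Prime) (hA : A.LiesOverPrime q) {x : Qb} (hx0 : x ∈ K0 A)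
    (hx : x ∈ A.nonunits) : x / q ∈ A := by
  have hxA : x ∈ A := A.nonunits_subset hx
  have halg : IsAlgebraic ℤ (⟨x, hx0⟩ : K0 A) :=
    (isAlgebraic_algebraMap_iff (S := K0 A) (A := Qb) (algebraMap (K0 A) Qb).injective).mp
      (isAlgebraic_int x)
  obtain ⟨b, c, hb, hc, hbu, hxbc⟩ :=
    exists_integral_fraction_of_isAlgebraic (A0 A) (⟨x, hx0⟩ : K0 A) hxA halg
  have hbint : IsIntegral ℤ (b : Qb) := hb.map (IsScalarTower.toAlgHom ℤ (K0 A) Qb)
  have hcint : IsIntegral ℤ (c : Qb) := hc.map (IsScalarTower.toAlgHom ℤ (K0 A) Qb)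
  have hxbc' : x * (b : Qb) = (c : Qb) := congrArg (fun y : K0 A => (y : Qb)) hxbc
  have hbA : (b : Qb) ∈ A := mem_valuationSubring_of_isIntegral A hbint
  have hcn : (c : Qb) ∈ A.nonunits := by
    rw [← hxbc']
    exact mul_mem_nonunits hx hbA
  have hcq : (c : Qb) / q ∈ A :=
    div_mem_of_isIntegral A q hq hA c hcint hcn ((mem_K0_iff A c).mp c.2)
  rw [mem_nonunits_A0_iff] at hbu
  have hbinv : (b : Qb)⁻¹ ∈ A := inv_mem_of_not_mem_nonunits hbu
  have hb0 : (b : Qb) ≠ 0 := by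
    intro h
    apply hbu
    rw [h, ValuationSubring.mem_nonunits_iff, map_zero]
    exact zero_lt_one
  have : x / q = (c : Qb) / q * (b : Qb)⁻¹ := by
    rw [← hxbc']
    field_simp
  rw [this]
  exact A.mul_mem _ _ hcq hbinv

/-- No nonzero element of `ℚ̄` is divisible in `A` by all powers of `q`.
[`x⁻¹` is algebraic, so `N * x⁻¹` is integral for some nonzero integer `N`; `A ∩ ℚ = ℤ_(q)`.] -/
theorem exists_div_pow_not_mem (hq : q.Prime) (hA : A.LiesOverPrime q) {x : Qb} (hx : x ≠ 0) :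
    ∃ k : ℕ, x / (q : Qb) ^ k ∉ A := by
  obtain ⟨N, hN0, hNint⟩ := (isAlgebraic_int x⁻¹).exists_integral_multiple
  have hwA : N • x⁻¹ ∈ A := mem_valuationSubring_of_isIntegral A hNint
  obtain ⟨N', hN', hqN'⟩ := (Int.finiteMultiplicity_iff.mpr
    ⟨by simpa using hq.ne_one, hN0⟩ : FiniteMultiplicity (q : ℤ) N).exists_eq_pow_mul_and_not_dvd
  set j := multiplicity (q : ℤ) N with hj
  have hq0 : (q : Qb) ≠ 0 := by exact_mod_cast hq.ne_zero
  have hvq : A.valuation (q : Qb) < 1 := (A.mem_nonunits_iff).mp hA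
  have hvq0 : A.valuation (q : Qb) ≠ 0 := (map_ne_zero _).2 hq0
  have hvN : A.valuation (N : Qb) = A.valuation (q : Qb) ^ j := by
    rw [hN']
    push_cast
    rw [map_mul, map_pow, valuation_intCast_eq_one hq hA hqN', mul_one]
  refine ⟨j + 1, fun hmem => ?_⟩
  -- `N / q ^ (j + 1) ∈ A`
  have h1 : x / (q : Qb) ^ (j + 1) * (N • x⁻¹) ∈ A := A.mul_mem _ _ hmem hwA
  have h2 : x / (q : Qb) ^ (j + 1) * (N • x⁻¹) = (N : Qb) / (q : Qb) ^ (j + 1) := by
    rw [zsmul_eq_mul]
    field_simp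
  rw [h2, ← A.valuation_le_one_iff, map_div₀, hvN, map_pow, pow_succ, div_mul_eq_div_div,
    div_self (pow_ne_zero _ hvq0), one_div] at h1
  exact absurd h1 (not_le.mpr ((one_lt_inv₀ (zero_lt_iff.2 hvq0)).mpr hvq))

namespace Unram

variable {A q}

theorem natCast_mem_K0 (n : ℕ) : (n : Qb) ∈ K0 A := natCast_mem (K0 A) n

/-- natural number version of (U1), for elements of `A`. -/
theorem exists_pow_mul_unit_of_mem (hq : q.Prime) (hA : A.LiesOverPrime q) {x : Qb}
    (hx0 : x ∈ K0 A) (hx : x ≠ 0) (hxA : x ∈ A) :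
    ∃ (k : ℕ) (u : Qb), u ∈ K0 A ∧ u ∈ A ∧ u⁻¹ ∈ A ∧ x = (q : Qb) ^ k * u := by
  classical
  have hex := exists_div_pow_not_mem A q hq hA hx
  set k := Nat.find hex with hk
  have hkspec : x / (q : Qb) ^ k ∉ A := Nat.find_spec hex
  have hq0 : (q : Qb) ≠ 0 := by exact_mod_cast hq.ne_zero
  have hk0 : k ≠ 0 := by
    intro h0
    apply hkspec
    rw [h0, pow_zero, div_one]
    exact hxA
  obtain ⟨m, hm⟩ := Nat.exists_eq_succ_of_ne_zero hk0
  have hmA : x / (q : Qb) ^ m ∈ A := by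
    by_contra hcon
    have := Nat.find_min' hex hcon
    omega
  have hmK : x / (q : Qb) ^ m ∈ K0 A := _root_.div_mem hx0 (pow_mem (natCast_mem_K0 q) m)
  have hunit : x / (q : Qb) ^ m ∉ A.nonunits := by
    intro hcon
    apply hkspec
    have := InertiaField.div_mem A q hq hA hmK hcon
    rw [hm, Nat.succ_eq_add_one, pow_succ, ← div_div]
    exact this
  refine ⟨m, x / (q : Qb) ^ m, hmK, hmA, inv_mem_of_not_mem_nonunits hunit, ?_⟩
  field_simp

end Unram

/-- (U1) every nonzero element of the inertia field is `q ^ k` times a unit of `A`. -/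
theorem exists_zpow_mul_unit (hq : q.Prime) (hA : A.LiesOverPrime q) {x : Qb} (hx0 : x ∈ K0 A)
    (hx : x ≠ 0) :
    ∃ (k : ℤ) (u : Qb), u ∈ K0 A ∧ u ∈ A ∧ u⁻¹ ∈ A ∧ x = (q : Qb) ^ k * u := by
  rcases A.mem_or_inv_mem x with hxA | hxA
  · obtain ⟨k, u, h1, h2, h3, h4⟩ := exists_pow_mul_unit_of_mem hq hA hx0 hx hxA
    exact ⟨k, u, h1, h2, h3, by rw [zpow_natCast]; exact h4⟩
  · obtain ⟨k, u, h1, h2, h3, h4⟩ :=
      exists_pow_mul_unit_of_mem hq hA (inv_mem hx0) (inv_ne_zero hx) hxA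
    refine ⟨-k, u⁻¹, inv_mem h1, h3, by rwa [inv_inv], ?_⟩
    rw [zpow_neg, zpow_natCast, ← mul_inv, ← h4, inv_inv]

theorem natCast_mem_nonunits_A0 (hA : A.LiesOverPrime q) : (q : K0 A) ∈ (A0 A).nonunits := by
  rw [mem_nonunits_A0_iff]
  exact hA

namespace Unram

variable {A q}

theorem not_isUnit_iff (a : A0 A) : ¬ IsUnit a ↔ (((a : K0 A)) : Qb) ∈ A.nonunits := by
  rw [← mem_nonunits_A0_iff, ValuationSubring.coe_mem_nonunits_iff, IsLocalRing.mem_maximalIdeal,
    mem_nonunits_iff]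

end Unram

theorem irreducible_natCast_A0 (hq : q.Prime) (hA : A.LiesOverPrime q) :
    Irreducible (q : A0 A) := by
  have hq0 : (q : Qb) ≠ 0 := by exact_mod_cast hq.ne_zero
  rw [irreducible_iff]
  refine ⟨(not_isUnit_iff _).mpr hA, ?_⟩
  intro a b hab
  by_contra hcon
  rw [not_or, not_isUnit_iff, not_isUnit_iff] at hcon
  obtain ⟨ha, hb⟩ := hcon
  have hab' : (q : Qb) = ((a : K0 A) : Qb) * ((b : K0 A) : Qb) :=
    congrArg (fun y : A0 A => ((y : K0 A) : Qb)) hab
  have hb0 : ((b : K0 A) : Qb) ≠ 0 := by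
    intro h
    rw [h, mul_zero] at hab'
    exact hq0 hab'
  have h1 : ((a : K0 A) : Qb) / q ∈ A := div_mem A q hq hA (a : K0 A).2 ha
  have h2 : ((b : K0 A) : Qb)⁻¹ = ((a : K0 A) : Qb) / q := by
    rw [hab']
    have ha0 : ((a : K0 A) : Qb) ≠ 0 := by
      intro h
      rw [h, zero_mul] at hab'
      exact hq0 hab'
    field_simp
  rw [← h2] at h1
  exact not_mem_nonunits_of_inv_mem hb0 h1 hb

theorem isDiscreteValuationRing_A0 (hq : q.Prime) (hA : A.LiesOverPrime q) :
    IsDiscreteValuationRing (A0 A) := by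
  apply IsDiscreteValuationRing.ofHasUnitMulPowIrreducibleFactorization
  refine ⟨(q : A0 A), irreducible_natCast_A0 A q hq hA, ?_⟩
  intro x hx
  have hx' : ((x : K0 A) : Qb) ≠ 0 := by
    intro h
    apply hx
    apply Subtype.ext
    apply Subtype.ext
    exact h
  obtain ⟨k, u, hu0, huA, huinv, hxu⟩ :=
    exists_pow_mul_unit_of_mem hq hA (x : K0 A).2 hx' x.2
  have hune : u ≠ 0 := by
    rintro rfl
    rw [mul_zero] at hxu
    exact hx' hxu
  let U : (A0 A)ˣ :=
    { val := ⟨⟨u, hu0⟩, huA⟩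
      inv := ⟨⟨u⁻¹, inv_mem hu0⟩, huinv⟩
      val_inv := by
        apply Subtype.ext
        apply Subtype.ext
        exact mul_inv_cancel₀ hune
      inv_val := by
        apply Subtype.ext
        apply Subtype.ext
        exact inv_mul_cancel₀ hune }
  refine ⟨k, U, ?_⟩
  apply Subtype.ext
  apply Subtype.ext
  exact hxu.symm

theorem maximalIdeal_A0 (hq : q.Prime) (hA : A.LiesOverPrime q) :
    IsLocalRing.maximalIdeal (A0 A) = Ideal.span {(q : A0 A)} := by
  have := isDiscreteValuationRing_A0 A q hq hA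
  exact (IsDiscreteValuationRing.irreducible_iff_uniformizer _).mp
    (irreducible_natCast_A0 A q hq hA)

end Fermat.Agent.Lib.InertiaField
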