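import Mathlib
import Fermat.Agent.Lib.InertiaField.Defs

/-!
# The inertia subgroup is closed; `Gal(ℚ̄ / K0 A)` is the inertia subgroup
-/

set_option autoImplicit false

namespace Fermat.Agent.Lib.InertiaField

open Fermat.Agent.Lib.Frobenius
open scoped Pointwise

/-- Evaluation at an element of `ℚ̄` is locally constant on the Galois group. -/
private theorem isLocallyConstant_eval (x : Qb) : IsLocallyConstant (fun σ : GQ => σ x) := by
  have := isIntegral_rat
  rw [IsLocallyConstant.iff_exists_open]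
  intro σ₀
  have hU : IsOpen ((MulAction.stabilizer GQ x : Subgroup GQ) : Set GQ) :=
    stabilizer_isOpen_of_isIntegral (K := ℚ) (L := Qb) x
  refine ⟨σ₀ • ((MulAction.stabilizer GQ x : Subgroup GQ) : Set GQ), hU.leftCoset σ₀, ?_, ?_⟩
  · exact ⟨1, one_mem _, by simp⟩
  · rintro _ ⟨u, hu, rfl⟩
    have hu' : u x = x := hu
    show (σ₀ * u) x = σ₀ x
    rw [AlgEquiv.mul_apply, hu']

private theorem isClosed_eval_mem (x : Qb) (s : Set Qb) : IsClosed {σ : GQ | σ x ∈ s} := by
  rw [← isOpen_compl_iff]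
  exact isLocallyConstant_eval x sᶜ

private theorem isClosed_inv_eval_mem (x : Qb) (s : Set Qb) : IsClosed {σ : GQ | σ⁻¹ x ∈ s} :=
  (isClosed_eval_mem x s).preimage continuous_inv

variable (A : ValuationSubring Qb)

theorem isClosed_inertia : IsClosed ((A.inertiaSubgroupIn ℚ : Subgroup GQ) : Set GQ) := by
  have h : ((A.inertiaSubgroupIn ℚ : Subgroup GQ) : Set GQ) =
      ⋂ (x : Qb) (_ : IsIntegral ℤ x), {σ : GQ | σ x ∈ {y : Qb | y - x ∈ A.nonunits}} := by
    ext σ
    simp only [SetLike.mem_coe, Set.mem_iInter, Set.mem_ofPred_eq]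
    exact mem_inertia_iff A σ
  rw [h]
  exact isClosed_iInter fun x => isClosed_iInter fun _ => isClosed_eval_mem x _

theorem isClosed_decomposition : IsClosed ((A.decompositionSubgroup ℚ : Subgroup GQ) : Set GQ) := by
  have h : ((A.decompositionSubgroup ℚ : Subgroup GQ) : Set GQ) =
      ⋂ (x : Qb) (_ : x ∈ A), ({σ : GQ | σ x ∈ (A : Set Qb)} ∩ {σ : GQ | σ⁻¹ x ∈ (A : Set Qb)}) := by
    ext σ
    simp only [SetLike.mem_coe, Set.mem_iInter, Set.mem_ofPred_eq, Set.mem_inter_iff]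
    constructor
    · intro hσ x hx
      exact ⟨apply_mem_of_mem_decomposition A hσ hx,
        apply_mem_of_mem_decomposition A (inv_mem hσ) hx⟩
    · intro hσ
      show σ • A = A
      ext y
      constructor
      · rintro ⟨a, ha, rfl⟩
        exact (hσ a ha).1
      · intro hy
        refine ⟨σ⁻¹ y, (hσ y hy).2, ?_⟩
        exact σ.apply_symm_apply y
  rw [h]
  exact isClosed_iInter fun x => isClosed_iInter fun _ =>
    (isClosed_eval_mem x _).inter (isClosed_inv_eval_mem x _)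

/-- (U3) -/
theorem fixingSubgroup_K0 : (K0 A).fixingSubgroup = A.inertiaSubgroupIn ℚ := by
  have := isGalois_rat
  exact InfiniteGalois.fixingSubgroup_fixedField ⟨A.inertiaSubgroupIn ℚ, isClosed_inertia A⟩

/-- (U3) -/
theorem mem_inertia_iff_fixes_K0 (σ : GQ) :
    σ ∈ A.inertiaSubgroupIn ℚ ↔ ∀ x ∈ K0 A, σ x = x := by
  rw [← fixingSubgroup_K0, IntermediateField.mem_fixingSubgroup_iff]

/-- The inertia subgroup is normalised by the decomposition subgroup. -/
theorem conj_mem_inertia {σ τ : GQ} (hσ : σ ∈ A.decompositionSubgroup ℚ)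
    (hτ : τ ∈ A.inertiaSubgroupIn ℚ) : σ * τ * σ⁻¹ ∈ A.inertiaSubgroupIn ℚ := by
  rw [mem_inertia_iff]
  intro x hx
  have hxA : x ∈ A := mem_valuationSubring_of_isIntegral A hx
  have hy : σ⁻¹ x ∈ A := apply_mem_of_mem_decomposition A (inv_mem hσ) hxA
  have h1 := apply_mem_nonunits_of_mem_decomposition A hσ (apply_sub_mem_nonunits A hτ hy)
  have h2 : σ (τ (σ⁻¹ x) - σ⁻¹ x) = (σ * τ * σ⁻¹) x - x := by
    rw [map_sub, AlgEquiv.mul_apply, AlgEquiv.mul_apply]
    congr 1
    exact σ.apply_symm_apply x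
  rwa [h2] at h1

/-- The decomposition subgroup preserves the inertia field. -/
theorem apply_mem_K0 {σ : GQ} (hσ : σ ∈ A.decompositionSubgroup ℚ) {x : Qb} (hx : x ∈ K0 A) :
    σ x ∈ K0 A := by
  rw [mem_K0_iff] at hx ⊢
  intro τ hτ
  have h1 : σ⁻¹ * τ * σ⁻¹⁻¹ ∈ A.inertiaSubgroupIn ℚ := conj_mem_inertia A (inv_mem hσ) hτ
  have h2 := hx _ h1
  rw [inv_inv, AlgEquiv.mul_apply, AlgEquiv.mul_apply] at h2
  have h3 := congrArg σ h2
  rw [show σ (σ⁻¹ (τ (σ x))) = τ (σ x) from σ.apply_symm_apply _] at h3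
  exact h3

end Fermat.Agent.Lib.InertiaField
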