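import Mathlib
import Fermat.Agent.Lib.InertiaField.Defs
import Fermat.Agent.Lib.InertiaField.Closed

/-!
# `A` is the integral closure of `A0 A`, and the unique valuation subring of `ℚ̄` above it
(proofs: helper259)
-/

set_option autoImplicit false

namespace Fermat.Agent.Lib.InertiaField

open Fermat.Agent.Lib.Frobenius Polynomial

variable (A : ValuationSubring Qb)

/-- the minimal polynomial over the inertia field, with coefficients in `ℚ̄` -/
private noncomputable def mp (x : Qb) : Qb[X] := (minpoly (K0 A) x).map (algebraMap (K0 A) Qb)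

private theorem isIntegral_K0 (x : Qb) : IsIntegral (K0 A) x := by
  have := isIntegral_rat
  exact (Algebra.IsIntegral.isIntegral (R := ℚ) x).tower_top

private theorem mp_monic (x : Qb) : (mp A x).Monic := (minpoly.monic (isIntegral_K0 A x)).map _

private theorem mp_coeff_mem (x : Qb) (i : ℕ) : (mp A x).coeff i ∈ K0 A := by
  rw [mp, coeff_map]
  exact ((minpoly (K0 A) x).coeff i).2

private theorem mp_eval (x : Qb) : (mp A x).eval x = 0 := by
  rw [mp, eval_map_algebraMap, minpoly.aeval]

private theorem mp_splits (x : Qb) : (mp A x).Splits := IsAlgClosed.splits _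

/-- every root of the minimal polynomial over `K0 A` is the image of `x` under inertia -/
private theorem exists_inertia_of_mem_roots {x r : Qb} (hr : r ∈ (mp A x).roots) :
    ∃ τ ∈ A.inertiaSubgroupIn ℚ, τ x = r := by
  have h0 : aeval r (minpoly (K0 A) x) = 0 := by
    have := (mem_roots'.mp hr).2
    rwa [IsRoot.def, mp, eval_map_algebraMap] at this
  have hconj : IsConjRoot (K0 A) r x := (isConjRoot_of_aeval_eq_zero (isIntegral_K0 A x) h0).symm
  have := isGalois_rat
  have : Normal (K0 A) Qb := Normal.tower_top_of_normal ℚ (K0 A) Qb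
  obtain ⟨σ, hσ⟩ := hconj.exists_algEquiv
  refine ⟨σ.restrictScalars ℚ, ?_, hσ⟩
  rw [mem_inertia_iff_fixes_K0]
  intro y hy
  exact σ.commutes ⟨y, hy⟩

/-- In a commutative ring, `∏ (X - r)` with all `r` in the ideal `I` is congruent to a power of
`X`. -/
private theorem coeff_prod_mem {R : Type*} [CommRing R] (I : Ideal R) (s : Multiset R)
    (hs : ∀ r ∈ s, r ∈ I) (i : ℕ) (hi : i < Multiset.card s) :
    ((s.map (fun r => X - C r)).prod).coeff i ∈ I := by
  rw [← Ideal.Quotient.eq_zero_iff_mem, ← coeff_map, Polynomial.map_multiset_prod,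
    Multiset.map_map]
  have h1 : s.map ((Polynomial.map (Ideal.Quotient.mk I)) ∘ fun r => X - C r)
      = s.map (fun _ => (X : (R ⧸ I)[X])) := by
    apply Multiset.map_congr rfl
    intro r hr
    simp [Ideal.Quotient.eq_zero_iff_mem.mpr (hs r hr)]
  rw [h1, Multiset.map_const', Multiset.prod_replicate, coeff_X_pow, if_neg hi.ne]

/-- (U7) every element of `A` is a root of a monic polynomial with coefficients in `A ∩ K0 A`
[its minimal polynomial over `K0 A`: all conjugates over `K0 A` are images under inertia,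
hence lie in `A`]. -/
theorem exists_monic_of_mem {x : Qb} (hx : x ∈ A) :
    ∃ f : Qb[X], f.Monic ∧ (∀ i, f.coeff i ∈ K0 A ∧ f.coeff i ∈ A) ∧ f.eval x = 0 := by
  refine ⟨mp A x, mp_monic A x, fun i => ⟨mp_coeff_mem A x i, ?_⟩, mp_eval A x⟩
  have hl : mp A x ∈ Polynomial.lifts A.subtype := by
    refine (mp_splits A x).mem_lift_of_roots_mem_range (mp_monic A x) A.subtype fun r hr => ?_
    obtain ⟨τ, hτ, rfl⟩ := exists_inertia_of_mem_roots A hr
    exact ⟨⟨τ x, apply_mem_of_mem_decomposition A (inertia_le_decomposition A hτ) hx⟩, rfl⟩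
  obtain ⟨a, ha⟩ := (lifts_iff_coeff_lifts _).mp hl i
  rw [← ha]
  exact a.2

/-- (U7) same for the maximal ideal: all lower coefficients lie in the maximal ideal. -/
theorem exists_monic_of_mem_nonunits {x : Qb} (hx : x ∈ A.nonunits) :
    ∃ f : Qb[X], f.Monic ∧ (∀ i, f.coeff i ∈ K0 A) ∧ (∀ i < f.natDegree, f.coeff i ∈ A.nonunits) ∧
      f.eval x = 0 := by
  refine ⟨mp A x, mp_monic A x, mp_coeff_mem A x, fun i hi => ?_, mp_eval A x⟩
  have hroots : ∀ r ∈ (mp A x).roots, r ∈ A.nonunits := by
    intro r hr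
    obtain ⟨τ, hτ, rfl⟩ := exists_inertia_of_mem_roots A hr
    exact apply_mem_nonunits_of_mem_decomposition A (inertia_le_decomposition A hτ) hx
  have hroots' : ∀ r ∈ (mp A x).roots, r ∈ A := fun r hr =>
    (ValuationSubring.mem_nonunits_iff_exists_mem_maximalIdeal.mp (hroots r hr)).1
  set s : Multiset A := (mp A x).roots.pmap (fun r hr => (⟨r, hr⟩ : A)) hroots' with hs
  have hsI : ∀ r ∈ s, r ∈ IsLocalRing.maximalIdeal A := by
    intro r hr
    obtain ⟨a, ha, rfl⟩ := Multiset.mem_pmap.mp hr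
    exact (ValuationSubring.mem_nonunits_iff_exists_mem_maximalIdeal.mp (hroots a ha)).2
  have hcard : Multiset.card s = (mp A x).natDegree := by
    rw [hs, Multiset.card_pmap, (mp_splits A x).natDegree_eq_card_roots]
  have hmap : ((s.map (fun r => X - C r)).prod).map A.subtype = mp A x := by
    conv_rhs => rw [(mp_splits A x).eq_prod_roots_of_monic (mp_monic A x)]
    rw [Polynomial.map_multiset_prod, Multiset.map_map, hs, Multiset.map_pmap]
    congr 1
    rw [← Multiset.pmap_eq_map (p := fun r => r ∈ A) _ _ hroots']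
    apply Multiset.pmap_congr
    intro r _ _ _
    simp
  have h1 := coeff_prod_mem (IsLocalRing.maximalIdeal A) s hsI i (hcard ▸ hi)
  rw [← hmap, coeff_map, ValuationSubring.mem_nonunits_iff_exists_mem_maximalIdeal]
  exact ⟨Subtype.property _, h1⟩

/-- (U3') `A` is the only valuation subring of `ℚ̄` lying over `A0 A`. -/
theorem eq_of_comap_eq (B : ValuationSubring Qb)
    (h : B.comap (algebraMap (K0 A) Qb) = A0 A) : B = A := by
  have hmem : ∀ c : Qb, c ∈ K0 A → (c ∈ B ↔ c ∈ A) := by
    intro c hc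
    have h1 : (⟨c, hc⟩ : K0 A) ∈ B.comap (algebraMap (K0 A) Qb) ↔ (⟨c, hc⟩ : K0 A) ∈ A0 A := by
      rw [h]
    exact h1
  have key : ∀ (C : ValuationSubring Qb) (y : Qb), y ≠ 0 → (y ∈ C.nonunits ↔ y⁻¹ ∉ C) := by
    intro C y hy
    rw [ValuationSubring.mem_nonunits_iff, ← C.valuation_le_one_iff, map_inv₀, not_le]
    have hv : C.valuation y ≠ 0 := (_root_.map_ne_zero _).2 hy
    rw [one_lt_inv₀ (zero_lt_iff.2 hv)]
  have hnon : ∀ c : Qb, c ∈ K0 A → c ∈ A.nonunits → c ∈ B.nonunits := by
    intro c hc hcA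
    by_cases h0 : c = 0
    · subst h0
      simp
    · rw [key B c h0, hmem _ (inv_mem hc), ← key A c h0]
      exact hcA
  have hAB : A ≤ B := by
    intro x hx
    obtain ⟨f, hf, hc, h0⟩ := exists_monic_of_mem A hx
    have hsub : (↑f.coeffs : Set Qb) ⊆ B.toSubring := by
      intro a ha
      obtain ⟨i, -, rfl⟩ := Polynomial.mem_coeffs_iff.mp (Finset.mem_coe.mp ha)
      exact (hmem _ (hc i).1).mpr (hc i).2
    have hint : IsIntegral B.toSubring x := by
      refine ⟨f.toSubring B.toSubring hsub, (Polynomial.monic_toSubring _ _ _).mpr hf, ?_⟩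
      have h5 : (f.toSubring B.toSubring hsub).map (algebraMap B.toSubring Qb) = f :=
        Polynomial.map_toSubring _ _ _
      rw [← h5, eval_map] at h0
      exact h0
    have hint' : IsIntegral B x := hint
    obtain ⟨y, hy⟩ := IsIntegrallyClosed.isIntegral_iff.mp hint'
    exact hy ▸ y.2
  refine le_antisymm ?_ hAB
  intro x hx
  by_contra hxA
  have hx0 : x ≠ 0 := fun h0 => hxA (h0 ▸ A.zero_mem)
  have hy : x⁻¹ ∈ A.nonunits := by
    rw [key A _ (inv_ne_zero hx0), inv_inv]
    exact hxA
  obtain ⟨f, hf, hK, hc, h0⟩ := exists_monic_of_mem_nonunits A hy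
  rw [eval_eq_sum_range, Finset.sum_range_succ, hf.coeff_natDegree, one_mul] at h0
  have h1 : ∑ i ∈ Finset.range f.natDegree, f.coeff i * x ^ (f.natDegree - i) = -1 := by
    have h2 : (∑ i ∈ Finset.range f.natDegree, f.coeff i * x⁻¹ ^ i + x⁻¹ ^ f.natDegree)
        * x ^ f.natDegree = 0 := by rw [h0, zero_mul]
    rw [add_mul, ← mul_pow, inv_mul_cancel₀ hx0, one_pow, Finset.sum_mul] at h2
    rw [eq_neg_iff_add_eq_zero, ← h2]
    congr 1
    apply Finset.sum_congr rfl
    intro i hi
    have hi' : i ≤ f.natDegree := (Finset.mem_range.mp hi).le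
    rw [mul_assoc]
    congr 1
    rw [← Nat.sub_add_cancel hi', pow_add, Nat.add_sub_cancel, mul_comm (x ^ _), ← mul_assoc,
      ← mul_pow, inv_mul_cancel₀ hx0, one_pow, one_mul]
  have h2 : B.valuation (∑ i ∈ Finset.range f.natDegree, f.coeff i * x ^ (f.natDegree - i)) < 1 := by
    refine Valuation.map_sum_lt _ one_ne_zero fun i hi => ?_
    have h3 : B.valuation (f.coeff i) < 1 :=
      (ValuationSubring.mem_nonunits_iff B).mp (hnon _ (hK i) (hc i (Finset.mem_range.mp hi)))
    have h4 : B.valuation (x ^ (f.natDegree - i)) ≤ 1 :=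
      (B.valuation_le_one_iff _).mpr (pow_mem hx _)
    rw [map_mul]
    exact mul_lt_one_of_lt_of_le h3 h4
  rw [h1, Valuation.map_neg, map_one] at h2
  exact lt_irrefl _ h2

end Fermat.Agent.Lib.InertiaField
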