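import Mathlib
import Fermat.Agent.Lib.InertiaField.Unram
import Fermat.Agent.Lib.InertiaField.Integral

/-!
# (ARCH): the valuation of `A` has rank one

Every non-unit `a` of `A` (an arbitrary element of `ℚ̄`, not only of the inertia field) has a
power divisible by `q` in `A`.
-/

set_option autoImplicit false

namespace Fermat.Agent.Lib.InertiaField

open Fermat.Agent.Lib.Frobenius Polynomial

variable (A : ValuationSubring Qb) (q : ℕ)

/-- **(ARCH)** some power of a non-unit of `A` is divisible by `q` in `A`. -/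
theorem exists_pow_div_mem (hq : q.Prime) (hA : A.LiesOverPrime q) {a : Qb}
    (ha : a ∈ A.nonunits) : ∃ n : ℕ, a ^ n / (q : Qb) ∈ A := by
  obtain ⟨f, hf, hK, hn, hev⟩ := exists_monic_of_mem_nonunits A ha
  have haA : a ∈ A := A.nonunits_subset ha
  refine ⟨f.natDegree, ?_⟩
  rw [eval_eq_sum_range, Finset.sum_range_succ, hf.coeff_natDegree, one_mul] at hev
  have h1 : a ^ f.natDegree = - ∑ i ∈ Finset.range f.natDegree, f.coeff i * a ^ i := by
    linear_combination hev
  rw [h1, neg_div, Finset.sum_div]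
  refine neg_mem (sum_mem fun i hi => ?_)
  have h2 : f.coeff i * a ^ i / (q : Qb) = f.coeff i / (q : Qb) * a ^ i := by ring
  rw [h2]
  exact mul_mem (div_mem A q hq hA (hK i) (hn i (Finset.mem_range.mp hi))) (pow_mem haA i)

/-- **(ARCH)**, multiplicative form. -/
theorem exists_pow_eq_mul (hq : q.Prime) (hA : A.LiesOverPrime q) {a : Qb}
    (ha : a ∈ A.nonunits) : ∃ (n : ℕ) (b : Qb), b ∈ A ∧ a ^ n = (q : Qb) * b := by
  obtain ⟨n, hn⟩ := exists_pow_div_mem A q hq hA ha
  have hq0 : (q : Qb) ≠ 0 := by exact_mod_cast hq.ne_zero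
  exact ⟨n, _, hn, by field_simp⟩

/-- **(ARCH)**, iterated: some power of a non-unit is divisible by `q ^ k`. -/
theorem exists_pow_div_pow_mem (hq : q.Prime) (hA : A.LiesOverPrime q) {a : Qb}
    (ha : a ∈ A.nonunits) (k : ℕ) : ∃ n : ℕ, a ^ n / (q : Qb) ^ k ∈ A := by
  obtain ⟨n, hn⟩ := exists_pow_div_mem A q hq hA ha
  refine ⟨n * k, ?_⟩
  rw [pow_mul, ← div_pow]
  exact pow_mem hn k

end Fermat.Agent.Lib.InertiaField
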