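import Mathlib
import Fermat.Agent.Lib.InertiaField.Defs
import Fermat.Agent.Lib.InertiaField.Unram
import Fermat.Agent.Lib.InertiaField.Hensel
import Fermat.Agent.Lib.InertiaField.Residue

/-!
# Teichmueller expansions in the inertia field
-/

set_option autoImplicit false

namespace Fermat.Agent.Lib.InertiaField

open Fermat.Agent.Lib.Frobenius

/-- Teichmueller digits: `0` and the roots of unity of order prime to `q`. -/
def IsTeich (q : ℕ) (z : Qb) : Prop := z = 0 ∨ ∃ n : ℕ, ¬ q ∣ n ∧ z ^ n = 1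

variable (A : ValuationSubring Qb) (q : ℕ)

private theorem teich_mul_mem_nonunits {x y : Qb} (hx : x ∈ A.nonunits) (hy : y ∈ A) :
    x * y ∈ A.nonunits := by
  rw [ValuationSubring.mem_nonunits_iff] at hx ⊢
  rw [map_mul]
  exact mul_lt_one_of_lt_of_le hx ((A.valuation_le_one_iff y).2 hy)

private theorem teich_not_mem_nonunits {n : ℕ} (hn : n ≠ 0) {z : Qb} (hz : z ^ n = 1) :
    z ∉ A.nonunits := by
  intro h
  rw [ValuationSubring.mem_nonunits_iff] at h
  have h1 : A.valuation z ^ n = 1 := by rw [← map_pow, hz, map_one]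
  exact absurd h1 (pow_lt_one₀ zero_le h hn).ne

private theorem teich_ne_zero_of_not_dvd {q n : ℕ} (hn : ¬ q ∣ n) : n ≠ 0 :=
  fun h => hn (h ▸ dvd_zero q)

theorem IsTeich.mem_K0 (hq : q.Prime) (hA : A.LiesOverPrime q) {z : Qb} (hz : IsTeich q z) :
    z ∈ K0 A := by
  rcases hz with rfl | ⟨n, hn, hz⟩
  · exact zero_mem _
  · exact rootOfUnity_mem_K0 A q hq hA hn hz

theorem IsTeich.mem (A : ValuationSubring Qb) {q : ℕ} {z : Qb} (hz : IsTeich q z) : z ∈ A := by
  rcases hz with rfl | ⟨n, hn, hz⟩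
  · exact zero_mem _
  · have hn0 : 0 < n := Nat.pos_of_ne_zero (teich_ne_zero_of_not_dvd hn)
    refine mem_valuationSubring_of_isIntegral A (IsIntegral.of_pow hn0 ?_)
    rw [hz]
    exact isIntegral_one

theorem IsTeich.eq_of_sub_mem (hq : q.Prime) (hA : A.LiesOverPrime q) {z z' : Qb}
    (hz : IsTeich q z) (hz' : IsTeich q z') (h : z - z' ∈ A.nonunits) : z = z' := by
  rcases hz with rfl | ⟨n, hn, hz⟩
  · rcases hz' with rfl | ⟨n', hn', hz'⟩
    · rfl
    · exfalso
      apply teich_not_mem_nonunits A (teich_ne_zero_of_not_dvd hn') hz'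
      have := neg_mem h
      simpa using this
  · rcases hz' with rfl | ⟨n', hn', hz'⟩
    · exfalso
      apply teich_not_mem_nonunits A (teich_ne_zero_of_not_dvd hn) hz
      simpa using h
    · exact rootOfUnity_eq_of_sub_mem A q hq hA hn hn' hz hz' h

theorem exists_isTeich_sub_mem (hq : q.Prime) (hA : A.LiesOverPrime q) {a : Qb} (ha : a ∈ A) :
    ∃ z : Qb, IsTeich q z ∧ a - z ∈ A.nonunits := by
  by_cases ha' : a ∈ A.nonunits
  · exact ⟨0, Or.inl rfl, by simpa using ha'⟩
  · obtain ⟨ζ, n, hn, hζ, h⟩ := exists_rootOfUnity_sub_mem A q hq hA ha ha'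
    exact ⟨ζ, Or.inr ⟨n, hn, hζ⟩, h⟩

/-- (U5) Teichmueller expansion to any order of an element of `A ∩ K0 A`. -/
theorem exists_teich_expansion (hq : q.Prime) (hA : A.LiesOverPrime q) {a : Qb} (ha0 : a ∈ K0 A)
    (ha : a ∈ A) (M : ℕ) :
    ∃ (z : ℕ → Qb) (a' : Qb), (∀ i, IsTeich q (z i)) ∧ a' ∈ K0 A ∧ a' ∈ A ∧
      a = ∑ i ∈ Finset.range M, z i * (q : Qb) ^ i + (q : Qb) ^ M * a' := by
  have hq0 : (q : Qb) ≠ 0 := Nat.cast_ne_zero.2 hq.ne_zero
  induction M with
  | zero => exact ⟨fun _ => 0, a, fun _ => Or.inl rfl, ha0, ha, by simp⟩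
  | succ M ih =>
    obtain ⟨z, a', hz, ha'0, ha', h⟩ := ih
    obtain ⟨w, hw, hw'⟩ := exists_isTeich_sub_mem A q hq hA ha'
    have hw0 : w ∈ K0 A := hw.mem_K0 A q hq hA
    have hd0 : a' - w ∈ K0 A := sub_mem ha'0 hw0
    refine ⟨Function.update z M w, (a' - w) / q, ?_, ?_, div_mem A q hq hA hd0 hw', ?_⟩
    · intro i
      by_cases hi : i = M
      · subst hi
        simpa using hw
      · simpa [Function.update_of_ne hi] using hz i
    · exact _root_.div_mem hd0 (natCast_mem _ q)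
    · rw [Finset.sum_range_succ, Function.update_self]
      have hsum : ∑ i ∈ Finset.range M, Function.update z M w i * (q : Qb) ^ i =
          ∑ i ∈ Finset.range M, z i * (q : Qb) ^ i := by
        refine Finset.sum_congr rfl fun i hi => ?_
        rw [Function.update_of_ne (Finset.mem_range.1 hi).ne]
      rw [hsum, h, pow_succ]
      field_simp
      ring

/-- Uniqueness of the digits. -/
theorem teich_expansion_unique (hq : q.Prime) (hA : A.LiesOverPrime q) (M : ℕ) {z z' : ℕ → Qb}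
    {a' a'' : Qb} (hz : ∀ i, IsTeich q (z i)) (hz' : ∀ i, IsTeich q (z' i)) (ha' : a' ∈ A)
    (ha'' : a'' ∈ A)
    (h : ∑ i ∈ Finset.range M, z i * (q : Qb) ^ i + (q : Qb) ^ M * a' =
      ∑ i ∈ Finset.range M, z' i * (q : Qb) ^ i + (q : Qb) ^ M * a'') :
    ∀ i < M, z i = z' i := by
  have hq0 : (q : Qb) ≠ 0 := Nat.cast_ne_zero.2 hq.ne_zero
  have hqA : (q : Qb) ∈ A := natCast_mem _ q
  induction M generalizing z z' with
  | zero => intro i hi; exact absurd hi (Nat.not_lt_zero i)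
  | succ M ih =>
    have key : ∀ y : ℕ → Qb, ∀ b : Qb,
        ∑ i ∈ Finset.range (M + 1), y i * (q : Qb) ^ i + (q : Qb) ^ (M + 1) * b =
          y 0 + (q : Qb) * (∑ i ∈ Finset.range M, y (i + 1) * (q : Qb) ^ i + (q : Qb) ^ M * b) := by
      intro y b
      rw [Finset.sum_range_succ', mul_add, Finset.mul_sum]
      have : ∀ i ∈ Finset.range M, y (i + 1) * (q : Qb) ^ (i + 1) =
          (q : Qb) * (y (i + 1) * (q : Qb) ^ i) := fun i _ => by ring
      rw [Finset.sum_congr rfl this]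
      ring
    have hmem : ∀ y : ℕ → Qb, (∀ i, IsTeich q (y i)) → ∀ b ∈ A,
        ∑ i ∈ Finset.range M, y (i + 1) * (q : Qb) ^ i + (q : Qb) ^ M * b ∈ A := by
      intro y hy b hb
      refine add_mem (sum_mem fun i _ => mul_mem ((hy _).mem A) (pow_mem hqA i))
        (mul_mem (pow_mem hqA M) hb)
    rw [key z a', key z' a''] at h
    set s := ∑ i ∈ Finset.range M, z (i + 1) * (q : Qb) ^ i + (q : Qb) ^ M * a' with hs
    set s' := ∑ i ∈ Finset.range M, z' (i + 1) * (q : Qb) ^ i + (q : Qb) ^ M * a'' with hs'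
    have hsA : s ∈ A := hmem z hz a' ha'
    have hs'A : s' ∈ A := hmem z' hz' a'' ha''
    have h0 : z 0 = z' 0 := by
      refine (hz 0).eq_of_sub_mem A q hq hA (hz' 0) ?_
      have : z 0 - z' 0 = (q : Qb) * (s' - s) := by linear_combination h
      rw [this]
      exact teich_mul_mem_nonunits A hA (sub_mem hs'A hsA)
    have hss : s = s' := by
      rw [h0] at h
      exact mul_left_cancel₀ hq0 (add_left_cancel h)
    have ih' := ih (z := fun i => z (i + 1)) (z' := fun i => z' (i + 1)) (fun i => hz _)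
      (fun i => hz' _) hss
    intro i hi
    rcases Nat.eq_zero_or_pos i with rfl | hi0
    · exact h0
    · obtain ⟨j, rfl⟩ := Nat.exists_eq_succ_of_ne_zero hi0.ne'
      exact ih' j (Nat.lt_of_succ_lt_succ hi)

end Fermat.Agent.Lib.InertiaField
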