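import Mathlib
import Fermat.Prelude.Def_EllipticCurve_FrobeniusTrace
import Fermat.Agent.Lib.InertiaField.Defs
import Fermat.Agent.Lib.InertiaField.Unram
import Fermat.Agent.Lib.InertiaField.Hensel
import Fermat.Agent.Lib.InertiaField.Residue
import Fermat.Agent.Lib.InertiaField.Closed
import Fermat.Agent.Lib.InertiaField.Teich

/-!
# Frobenius lifts on the inertia field
-/

set_option autoImplicit false

namespace Fermat.Agent.Lib.InertiaField

open Fermat.Agent.Lib.Frobenius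

variable (A : ValuationSubring Qb) (q : ℕ)

private theorem frob_sub_mem_nonunits {x y : Qb} (hx : x ∈ A.nonunits) (hy : y ∈ A.nonunits) :
    x - y ∈ A.nonunits := by
  rw [ValuationSubring.mem_nonunits_iff] at hx hy ⊢
  exact Valuation.map_sub_lt _ hx hy

theorem frob_apply_sub_pow_mem {σ : GQ} (hσ : A.IsFrobeniusAt σ q) {a : Qb} (ha : a ∈ A) :
    σ a - a ^ q ∈ A.nonunits := by
  obtain ⟨hd, h⟩ := hσ
  have h2 := h (IsLocalRing.residue A ⟨a, ha⟩)
  rw [← IsLocalRing.ResidueField.residue_smul, ← map_pow, ← sub_eq_zero, ← map_sub,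
    IsLocalRing.residue_eq_zero_iff] at h2
  rw [ValuationSubring.mem_nonunits_iff_exists_mem_maximalIdeal]
  exact ⟨_, h2⟩

/-- (U6) a Frobenius lift raises Teichmueller digits to the `q`-th power. -/
theorem frob_apply_isTeich (hq : q.Prime) (hA : A.LiesOverPrime q) {σ : GQ}
    (hσ : A.IsFrobeniusAt σ q) {z : Qb} (hz : IsTeich q z) : σ z = z ^ q := by
  have h1 : IsTeich q (σ z) := by
    rcases hz with rfl | ⟨n, hn, hzn⟩
    · exact Or.inl (map_zero σ)
    · exact Or.inr ⟨n, hn, by rw [← map_pow, hzn, map_one]⟩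
  have h2 : IsTeich q (z ^ q) := by
    rcases hz with rfl | ⟨n, hn, hzn⟩
    · exact Or.inl (zero_pow hq.ne_zero)
    · exact Or.inr ⟨n, hn, by rw [← pow_mul, mul_comm, pow_mul, hzn, one_pow]⟩
  exact IsTeich.eq_of_sub_mem A q hq hA h1 h2 (frob_apply_sub_pow_mem A q hσ (hz.mem A))

/-- Two Frobenius lifts agree on the inertia field. -/
theorem frob_eq_on_K0 {σ σ' : GQ} (hσ : A.IsFrobeniusAt σ q) (hσ' : A.IsFrobeniusAt σ' q) {x : Qb}
    (hx : x ∈ K0 A) : σ x = σ' x := by
  have hd : σ⁻¹ ∈ A.decompositionSubgroup ℚ := inv_mem hσ.mem_decompositionSubgroup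
  have hτ : σ⁻¹ * σ' ∈ A.inertiaSubgroupIn ℚ := by
    rw [mem_inertia_iff]
    intro y hy
    have hyA : y ∈ A := mem_valuationSubring_of_isIntegral A hy
    have h1 : σ' y - σ y ∈ A.nonunits := by
      have := frob_sub_mem_nonunits A (frob_apply_sub_pow_mem A q hσ' hyA)
        (frob_apply_sub_pow_mem A q hσ hyA)
      simpa using this
    have h2 := apply_mem_nonunits_of_mem_decomposition A hd h1
    have h3 : σ⁻¹ (σ' y - σ y) = (σ⁻¹ * σ') y - y := by
      rw [map_sub]
      congr 1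
      exact σ.symm_apply_apply y
    rwa [h3] at h2
  have h4 := (mem_K0_iff A x).1 hx _ hτ
  have h5 : σ ((σ⁻¹ * σ') x) = σ' x := σ.apply_symm_apply (σ' x)
  rw [← h5, h4]

private theorem frob_exists_int_sub_mem (hq : q.Prime) (hA : A.LiesOverPrime q) {σ : GQ}
    (hσ : A.IsFrobeniusAt σ q) {a : Qb} (ha : a ∈ A) (hfix : σ a = a) :
    ∃ m : ℤ, a - m ∈ A.nonunits := by
  have : Fact q.Prime := ⟨hq⟩
  have := charP_residueField A q hq hA
  have h1 := frob_apply_sub_pow_mem A q hσ ha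
  rw [hfix, ValuationSubring.mem_nonunits_iff_exists_mem_maximalIdeal] at h1
  obtain ⟨h0, h1⟩ := h1
  have h2 : IsLocalRing.residue A ⟨a, ha⟩ ^ q = IsLocalRing.residue A ⟨a, ha⟩ := by
    rw [← IsLocalRing.residue_eq_zero_iff] at h1
    have h3 : (⟨a - a ^ q, h0⟩ : A) = ⟨a, ha⟩ - ⟨a, ha⟩ ^ q := rfl
    rw [h3, map_sub, map_pow, sub_eq_zero] at h1
    exact h1.symm
  rw [← Subfield.mem_bot_iff_pow_eq_self, mem_bot_iff_intCast q] at h2
  obtain ⟨m, hm⟩ := h2
  refine ⟨m, ?_⟩
  rw [ValuationSubring.mem_nonunits_iff_exists_mem_maximalIdeal]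
  refine ⟨A.sub_mem ha (by exact_mod_cast (m : A).2), ?_⟩
  rw [← IsLocalRing.residue_eq_zero_iff]
  have h3 : (⟨a - m, A.sub_mem ha (by exact_mod_cast (m : A).2)⟩ : A) = ⟨a, ha⟩ - (m : A) :=
    Subtype.ext (by simp)
  rw [h3, map_sub, map_intCast, hm, sub_self]

/-- An element of `A ∩ K0 A` fixed by a Frobenius lift is congruent to a rational integer modulo
every power of `q` (the decomposition field has `e = f = 1`). -/
theorem exists_int_sub_div_mem (hq : q.Prime) (hA : A.LiesOverPrime q) {σ : GQ}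
    (hσ : A.IsFrobeniusAt σ q) {a : Qb} (ha0 : a ∈ K0 A) (ha : a ∈ A) (hfix : σ a = a) (M : ℕ) :
    ∃ m : ℤ, (a - m) / (q : Qb) ^ M ∈ A := by
  have hq0 : (q : Qb) ≠ 0 := by exact_mod_cast hq.ne_zero
  induction M generalizing a with
  | zero => exact ⟨0, by simpa using ha⟩
  | succ M ih =>
    obtain ⟨m0, hm0⟩ := frob_exists_int_sub_mem A q hq hA hσ ha hfix
    have hK : a - m0 ∈ K0 A := sub_mem ha0 (intCast_mem _ m0)
    have hb : (a - m0) / q ∈ A := div_mem A q hq hA hK hm0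
    have hbK : (a - m0) / q ∈ K0 A := _root_.div_mem hK (natCast_mem _ q)
    have hbfix : σ ((a - m0) / q) = (a - m0) / q := by
      rw [map_div₀, map_sub, hfix, map_intCast, map_natCast]
    obtain ⟨m1, hm1⟩ := ih hbK hb hbfix
    refine ⟨m0 + q * m1, ?_⟩
    have : (a - ((m0 + q * m1 : ℤ) : Qb)) / (q : Qb) ^ (M + 1) =
        ((a - m0) / q - m1) / (q : Qb) ^ M := by
      push_cast
      field_simp
      ring
    rw [this]
    exact hm1

end Fermat.Agent.Lib.InertiaField
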